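import Fermat.Agent.A2.H553.Modular
import Fermat.Agent.A2.H528.FrickeGalois
import Fermat.Agent.A2.H129.Kummer
import Fermat.Agent.S37.Rim.Spec

/-!
# Row 38, WALL-p, leaves W-SLOPE + W-DLOG: the subgroups `𝓕` (finite part) and `𝒮` (split part)
  (helper573; DEFINITIONS ONLY, no statement is assumed)

`N = p * M'`, `A ⊆ ℚ̄` a valuation subring over `p`, `k = A/𝔪`.  Everything is on the level of
`ℚ̄`, in the language of `A2/H553` (Gauss valuation of the `t`-expansion):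

* `V∞ = H553.VinfModular A _ hA N ⊆ F_N = modularFunctionFieldBar N`, the Gauss valuation ring,
  `red∞ = H553.redInf : V∞ →+* k((t))` the coefficientwise reduction;
* `W = H528.wF N` the Fricke involution of `F_N`, `V₀ = V∞ ∘ W`, `red₀ = red∞ ∘ W`;
* `F_{M',k} = FkM A M' = modularFunctionFieldFullC k M' ⊆ k((t))`.

A class `x ∈ J₀(N)(ℚ̄)` with `p x = 0` is `x = [D]`, `p D = div f`: `IsKummerFn p N x f`.

Predicates on functions `f ∈ F_N` (both are subgroups of `F_Nˣ`, see `Slope.lean`):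

* `RedPow p A hA N f`      : `f = c · g ^ p · u`, `c ∈ ℚ̄ˣ`, `g ∈ F_Nˣ`, `u ∈ 1 + 𝔪_{V∞}`
                             ("the reduction of `f` on `C∞` is a constant times a `p`-th power");
* `RedSlopeZero p M' A hA N f` : `f = c · u`, `u ∈ V∞`, `red∞ u = h ∈ F_{M',k}`, `h ≠ 0` and
                             `p ∣ ord_Q h` at EVERY place `Q` of `F_{M',k}`
                             ("all slopes of `f` seen from `C∞` vanish").

Subgroups of `JZero N` (for a ring automorphism `T` of `F_N`; `T = 1` gives the component `C∞`,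
`T = W` the component `C₀`):

* `splitAt p A hA N T`   : classes with a Kummer function `f` such that `RedPow (T f)`;
* `finAt p M' A hA N T`  : classes with a Kummer function `f` such that `RedSlopeZero (T f)`;
* `splitInf`, `splitZero`, `splitPart = splitInf ⊓ splitZero`;
  `finInf`, `finZero`, `finPart = finInf ⊓ finZero`.
-/

set_option autoImplicit false
set_option linter.unusedSectionVars false
set_option linter.style.haveILetI false

noncomputable section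

namespace Fermat.Agent.Ribet.H573

open AlgebraicCurve ModularCurve HahnSeries
open Fermat.Agent.A2.H129 Fermat.Agent.A2.H553 Fermat.Agent.A2.H528 Fermat.Agent.S37.Rim

/-- The constant `c ∈ ℚ̄` as an element of `F_N`. -/
abbrev cst (N : ℕ) (c : Qb) : ↥(modularFunctionFieldBar N) :=
  algebraMap Qb ↥(modularFunctionFieldBar N) c

/-- `f` is a Kummer function of the class `x`: `x = [D]` and `div f = m · D`. -/
def IsKummerFn (m N : ℕ) (x : JZero N) (f : ↥(modularFunctionFieldBar N)) : Prop :=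
  f ≠ 0 ∧ ∃ D : Divisor.degZero (K := Qb) (F := ↥(modularFunctionFieldBar N)),
    Pic0.mk D = x ∧
      ∀ v : Place Qb ↥(modularFunctionFieldBar N), v.ord f = (m : ℤ) * (D : Divisor Qb _) v

section Fn

variable (p M' : ℕ) (A : ValuationSubring Qb) (hA : A.LiesOverPrime p) (N : ℕ)

/-- The Gauss valuation ring `V∞` of `F_N` over `A`. -/
abbrev VInf (hp : p ≠ 0) : ValuationSubring ↥(modularFunctionFieldBar N) :=
  VinfModular A hp hA N

/-- The reduction `V∞ → k((t))`. -/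
abbrev redV (hp : p ≠ 0) :
    ↥(VInf p A hA N hp) →+* LaurentSeries (kA A) :=
  redInf (gaussInput_modular A hp hA N)

/-- `f ∈ ℚ̄ˣ · (F_Nˣ)^p · (1 + 𝔪_{V∞})`: the reduction of `f` along `V∞` is a constant times a
`p`-th power. -/
def RedPow (hp : p ≠ 0) (f : ↥(modularFunctionFieldBar N)) : Prop :=
  ∃ c : Qb, c ≠ 0 ∧ ∃ g : ↥(modularFunctionFieldBar N), g ≠ 0 ∧
    OneAddNonunits (VInf p A hA N hp) (f * (cst N c)⁻¹ * (g ^ p)⁻¹)

/-- `f = c · u` with `u ∈ V∞` whose reduction `h` lies in `F_{M',k}`, is nonzero and has all its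
orders divisible by `p`. -/
def RedSlopeZero (hp : p ≠ 0) (f : ↥(modularFunctionFieldBar N)) : Prop :=
  ∃ c : Qb, c ≠ 0 ∧ ∃ (hm : f * (cst N c)⁻¹ ∈ VInf p A hA N hp) (h : ↥(FkM A M')), h ≠ 0 ∧
    redV p A hA N hp ⟨f * (cst N c)⁻¹, hm⟩ = (h : LaurentSeries (kA A)) ∧
    ∀ Q : Place (kA A) ↥(FkM A M'), (p : ℤ) ∣ Q.ord h

/-! ### Both predicates cut out subgroups of `F_Nˣ` -/

variable {p M' A hA N}

theorem RedPow.one (hp : p ≠ 0) : RedPow p A hA N hp 1 := by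
  refine ⟨1, one_ne_zero, 1, one_ne_zero, ?_⟩
  have e : (1 : ↥(modularFunctionFieldBar N)) * (cst N 1)⁻¹ * (1 ^ p)⁻¹ = 1 := by
    rw [cst, map_one, one_pow, inv_one, mul_one, mul_one]
  rw [e]
  exact OneAddNonunits.one

theorem RedPow.mul {hp : p ≠ 0} {f₁ f₂ : ↥(modularFunctionFieldBar N)}
    (h₁ : RedPow p A hA N hp f₁) (h₂ : RedPow p A hA N hp f₂) :
    RedPow p A hA N hp (f₁ * f₂) := by
  obtain ⟨c₁, hc₁, g₁, hg₁, hu₁⟩ := h₁
  obtain ⟨c₂, hc₂, g₂, hg₂, hu₂⟩ := h₂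
  refine ⟨c₁ * c₂, mul_ne_zero hc₁ hc₂, g₁ * g₂, mul_ne_zero hg₁ hg₂, ?_⟩
  have e : f₁ * f₂ * (cst N (c₁ * c₂))⁻¹ * ((g₁ * g₂) ^ p)⁻¹ =
      (f₁ * (cst N c₁)⁻¹ * (g₁ ^ p)⁻¹) * (f₂ * (cst N c₂)⁻¹ * (g₂ ^ p)⁻¹) := by
    rw [cst, map_mul, mul_pow, mul_inv, mul_inv]
    ring
  rw [e]
  exact hu₁.mul hu₂

theorem RedPow.inv {hp : p ≠ 0} {f : ↥(modularFunctionFieldBar N)}
    (h : RedPow p A hA N hp f) : RedPow p A hA N hp f⁻¹ := by
  obtain ⟨c, hc, g, hg, hu⟩ := h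
  refine ⟨c⁻¹, inv_ne_zero hc, g⁻¹, inv_ne_zero hg, ?_⟩
  have e : f⁻¹ * (cst N c⁻¹)⁻¹ * (g⁻¹ ^ p)⁻¹ = (f * (cst N c)⁻¹ * (g ^ p)⁻¹)⁻¹ := by
    rw [cst, map_inv₀, inv_pow, mul_inv, mul_inv]
  rw [e]
  exact hu.inv

/-- an element of `V∞` with nonzero reduction is a unit of `V∞` -/
theorem inv_mem_of_redV_ne_zero {hp : p ≠ 0} {u : ↥(modularFunctionFieldBar N)}
    (hm : u ∈ VInf p A hA N hp) (h : redV p A hA N hp ⟨u, hm⟩ ≠ 0) :
    u⁻¹ ∈ VInf p A hA N hp := by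
  have h1 : ¬ (VInf p A hA N hp).valuation u < 1 := fun hlt =>
    h ((redInf_eq_zero_iff (gaussInput_modular A hp hA N) ⟨u, hm⟩).mpr hlt)
  rw [valuation_lt_one_iff_mem] at h1
  by_contra hcon
  exact h1 ⟨hm, Or.inr hcon⟩

theorem RedSlopeZero.one (hp : p ≠ 0) : RedSlopeZero p M' A hA N hp 1 := by
  have e : (1 : ↥(modularFunctionFieldBar N)) * (cst N 1)⁻¹ = 1 := by
    rw [cst, map_one, inv_one, mul_one]
  have hm : (1 : ↥(modularFunctionFieldBar N)) * (cst N 1)⁻¹ ∈ VInf p A hA N hp := by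
    rw [e]; exact one_mem _
  refine ⟨1, one_ne_zero, hm, 1, one_ne_zero, ?_, fun Q => ?_⟩
  · have : (⟨(1 : ↥(modularFunctionFieldBar N)) * (cst N 1)⁻¹, hm⟩ : ↥(VInf p A hA N hp)) = 1 :=
      Subtype.ext e
    rw [this, map_one]
    rfl
  · rw [Place.ord_one]
    exact dvd_zero _

theorem RedSlopeZero.mul {hp : p ≠ 0} {f₁ f₂ : ↥(modularFunctionFieldBar N)}
    (h₁ : RedSlopeZero p M' A hA N hp f₁) (h₂ : RedSlopeZero p M' A hA N hp f₂) :
    RedSlopeZero p M' A hA N hp (f₁ * f₂) := by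
  obtain ⟨c₁, hc₁, hm₁, k₁, hk₁, hr₁, hd₁⟩ := h₁
  obtain ⟨c₂, hc₂, hm₂, k₂, hk₂, hr₂, hd₂⟩ := h₂
  have e : f₁ * f₂ * (cst N (c₁ * c₂))⁻¹ = (f₁ * (cst N c₁)⁻¹) * (f₂ * (cst N c₂)⁻¹) := by
    rw [cst, map_mul, mul_inv]
    ring
  have hm : f₁ * f₂ * (cst N (c₁ * c₂))⁻¹ ∈ VInf p A hA N hp := by
    rw [e]; exact mul_mem hm₁ hm₂
  refine ⟨c₁ * c₂, mul_ne_zero hc₁ hc₂, hm, k₁ * k₂, mul_ne_zero hk₁ hk₂, ?_, fun Q => ?_⟩
  · have : (⟨f₁ * f₂ * (cst N (c₁ * c₂))⁻¹, hm⟩ : ↥(VInf p A hA N hp)) =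
        ⟨f₁ * (cst N c₁)⁻¹, hm₁⟩ * ⟨f₂ * (cst N c₂)⁻¹, hm₂⟩ := Subtype.ext e
    rw [this, map_mul, hr₁, hr₂]
    rfl
  · rw [Q.ord_mul hk₁ hk₂]
    exact dvd_add (hd₁ Q) (hd₂ Q)

theorem RedSlopeZero.inv {hp : p ≠ 0} {f : ↥(modularFunctionFieldBar N)}
    (h : RedSlopeZero p M' A hA N hp f) : RedSlopeZero p M' A hA N hp f⁻¹ := by
  obtain ⟨c, hc, hm, k, hk, hr, hd⟩ := h
  have hne : redV p A hA N hp ⟨f * (cst N c)⁻¹, hm⟩ ≠ 0 := by
    rw [hr]
    intro h0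
    exact hk (Subtype.ext h0)
  have e : f⁻¹ * (cst N c⁻¹)⁻¹ = (f * (cst N c)⁻¹)⁻¹ := by
    rw [cst, map_inv₀, mul_inv]
  have hm' : f⁻¹ * (cst N c⁻¹)⁻¹ ∈ VInf p A hA N hp := by
    rw [e]; exact inv_mem_of_redV_ne_zero hm hne
  refine ⟨c⁻¹, inv_ne_zero hc, hm', k⁻¹, inv_ne_zero hk, ?_, fun Q => ?_⟩
  · have hu0 : f * (cst N c)⁻¹ ≠ 0 := by
      intro h0
      apply hne
      have : (⟨f * (cst N c)⁻¹, hm⟩ : ↥(VInf p A hA N hp)) = 0 := Subtype.ext h0
      rw [this, map_zero]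
    have hprod : (⟨f⁻¹ * (cst N c⁻¹)⁻¹, hm'⟩ : ↥(VInf p A hA N hp)) *
        ⟨f * (cst N c)⁻¹, hm⟩ = 1 := by
      apply Subtype.ext
      show f⁻¹ * (cst N c⁻¹)⁻¹ * (f * (cst N c)⁻¹) = 1
      rw [e, inv_mul_cancel₀ hu0]
    have h2 := congrArg (redV p A hA N hp) hprod
    rw [map_mul, map_one, hr] at h2
    have hk' : ((k : ↥(FkM A M')) : LaurentSeries (kA A)) ≠ 0 := fun h0 => hk (Subtype.ext h0)
    have h3 : redV p A hA N hp ⟨f⁻¹ * (cst N c⁻¹)⁻¹, hm'⟩ =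
        ((k : ↥(FkM A M')) : LaurentSeries (kA A))⁻¹ := eq_inv_of_mul_eq_one_left h2
    rw [h3]
    rfl
  · rw [Q.ord_inv]
    exact (dvd_neg).mpr (hd Q)

/-! ### Kummer functions -/

theorem IsKummerFn.zero (m N : ℕ) : IsKummerFn m N 0 1 := by
  refine ⟨one_ne_zero, 0, rfl, fun v => ?_⟩
  rw [Place.ord_one]
  simp

theorem IsKummerFn.add {m N : ℕ} {x y : JZero N} {f g : ↥(modularFunctionFieldBar N)}
    (hf : IsKummerFn m N x f) (hg : IsKummerFn m N y g) : IsKummerFn m N (x + y) (f * g) := by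
  obtain ⟨hf0, D, rfl, hD⟩ := hf
  obtain ⟨hg0, E, rfl, hE⟩ := hg
  refine ⟨mul_ne_zero hf0 hg0, D + E, rfl, fun v => ?_⟩
  rw [v.ord_mul hf0 hg0, hD v, hE v]
  simp only [AddSubgroup.coe_add, Finsupp.add_apply]
  ring

theorem IsKummerFn.neg {m N : ℕ} {x : JZero N} {f : ↥(modularFunctionFieldBar N)}
    (hf : IsKummerFn m N x f) : IsKummerFn m N (-x) f⁻¹ := by
  obtain ⟨hf0, D, rfl, hD⟩ := hf
  refine ⟨inv_ne_zero hf0, -D, rfl, fun v => ?_⟩
  rw [v.ord_inv, hD v]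
  simp only [AddSubgroup.coe_neg, Finsupp.neg_apply]
  ring

end Fn

/-! ## The subgroups -/

section Subgroups

variable (p M' : ℕ) (A : ValuationSubring Qb) (hA : A.LiesOverPrime p) (N : ℕ) (hp : p ≠ 0)

/-- Classes with a Kummer function `f` such that the reduction of `T f` along `V∞` is a constant
times a `p`-th power. -/
def splitAt (T : ↥(modularFunctionFieldBar N) ≃+* ↥(modularFunctionFieldBar N)) :
    AddSubgroup (JZero N) where
  carrier := {x | ∃ f, IsKummerFn p N x f ∧ RedPow p A hA N hp (T f)}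
  zero_mem' := ⟨1, IsKummerFn.zero p N, by rw [map_one]; exact RedPow.one hp⟩
  add_mem' := by
    rintro x y ⟨f, hf, hf'⟩ ⟨g, hg, hg'⟩
    exact ⟨f * g, hf.add hg, by rw [map_mul]; exact hf'.mul hg'⟩
  neg_mem' := by
    rintro x ⟨f, hf, hf'⟩
    exact ⟨f⁻¹, hf.neg, by rw [map_inv₀]; exact hf'.inv⟩

/-- Classes with a Kummer function `f` such that `T f` has all slopes zero along `V∞`. -/
def finAt (T : ↥(modularFunctionFieldBar N) ≃+* ↥(modularFunctionFieldBar N)) :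
    AddSubgroup (JZero N) where
  carrier := {x | ∃ f, IsKummerFn p N x f ∧ RedSlopeZero p M' A hA N hp (T f)}
  zero_mem' := ⟨1, IsKummerFn.zero p N, by rw [map_one]; exact RedSlopeZero.one hp⟩
  add_mem' := by
    rintro x y ⟨f, hf, hf'⟩ ⟨g, hg, hg'⟩
    exact ⟨f * g, hf.add hg, by rw [map_mul]; exact hf'.mul hg'⟩
  neg_mem' := by
    rintro x ⟨f, hf, hf'⟩
    exact ⟨f⁻¹, hf.neg, by rw [map_inv₀]; exact hf'.inv⟩

variable {p M' A hA N hp}

theorem mem_splitAt {T : ↥(modularFunctionFieldBar N) ≃+* ↥(modularFunctionFieldBar N)}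
    {x : JZero N} :
    x ∈ splitAt p A hA N hp T ↔ ∃ f, IsKummerFn p N x f ∧ RedPow p A hA N hp (T f) := Iff.rfl

theorem mem_finAt {T : ↥(modularFunctionFieldBar N) ≃+* ↥(modularFunctionFieldBar N)}
    {x : JZero N} :
    x ∈ finAt p M' A hA N hp T ↔
      ∃ f, IsKummerFn p N x f ∧ RedSlopeZero p M' A hA N hp (T f) := Iff.rfl

end Subgroups

section Parts

variable (p M' : ℕ) [NeZero (p * M')] (A : ValuationSubring Qb) (hA : A.LiesOverPrime p)
  (hp : p ≠ 0)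

/-- `𝒮∞`: the reduction on `C∞` is a constant times a `p`-th power. -/
def splitInf : AddSubgroup (JZero (p * M')) :=
  splitAt p A hA (p * M') hp (RingEquiv.refl _)

/-- `𝒮₀`: the reduction on `C₀` is a constant times a `p`-th power. -/
def splitZero : AddSubgroup (JZero (p * M')) :=
  splitAt p A hA (p * M') hp (wF (p * M')).toRingEquiv

/-- **`𝒮`, the split part**: both reductions are constants times `p`-th powers. -/
def splitPart : AddSubgroup (JZero (p * M')) :=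
  splitInf p M' A hA hp ⊓ splitZero p M' A hA hp

/-- `𝓕∞`: all slopes seen from `C∞` vanish. -/
def finInf : AddSubgroup (JZero (p * M')) :=
  finAt p M' A hA (p * M') hp (RingEquiv.refl _)

/-- `𝓕₀`: all slopes seen from `C₀` vanish. -/
def finZero : AddSubgroup (JZero (p * M')) :=
  finAt p M' A hA (p * M') hp (wF (p * M')).toRingEquiv

/-- **`𝓕`, the finite part**: all slopes vanish, on both components. -/
def finPart : AddSubgroup (JZero (p * M')) :=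
  finInf p M' A hA hp ⊓ finZero p M' A hA hp

end Parts

end Fermat.Agent.Ribet.H573
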