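import Fermat.Agent.Ribet.H573.SplitRoot
import Fermat.Agent.Ribet.H573.SlopeSpec
import Fermat.Agent.Ribet.H884.SlopeClosed
import Fermat.Agent.Ribet.H939.ResField

/-!
# Row 38, WALL-p, bridge SPLIT-LIFT (helper573): from `H884.SplitGen` to `p`-th powers

Language of the hub `Ribet/H884/SlopeSpec.lean`.  `N = p * M'`, `p ∤ M'`, `A` over `p`,
`k = kA A`, `V∞ = H553.VinfModular A _ hA N`, `red∞ = H553.redInf`.

* `isRedInf_iff`        : `IsRedInf N A f r ↔ ∃ c ≠ 0, f / c ∈ V∞ ∧ red∞ (f / c) = r ∧ r ≠ 0`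
                          (dictionary series form ↔ valuation form);
* `exists_lift_full`    : every `s ∈ F_k = modularFunctionFieldFullC k M`, `M ∣ N`, is the
                          reduction of an element of `V∞` (level `N`);
* `exists_isRedInf_full`: for `s ≠ 0` in `F_k`: `∃ g, IsRedInf N A g s`;
* **`splitLift_inf`**, **`splitLift_zero`** : if `f` has a reduction `r ∈ F_k ∩ k((t^p))` on `C∞`
  (resp. `C₀`) then `f = g ^ p · u` with `IsRedInf N A u 1` (resp. `IsRedZero`), i.e.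
  `f ∈ ℚ̄ˣ · (F_Nˣ)^p · (1 + 𝔪_{V∞})` (resp. `V₀`);
* `splitGen_lift`       : both, for `H884.SplitGen f`;
* `oneAddNonunits_of_isRedInf_one` : `IsRedInf N A u 1 → ∃ c ≠ 0, u / c ∈ 1 + 𝔪_{V∞}`
  (`H129.OneAddNonunits`, the depth-1 input of norm contraction).
-/

set_option autoImplicit false
set_option linter.unusedSectionVars false
set_option linter.style.haveILetI false
set_option synthInstance.maxHeartbeats 400000
set_option maxHeartbeats 1000000

noncomputable section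

namespace Fermat.Agent.Ribet.H573

open AlgebraicCurve ModularCurve HahnSeries IntermediateField
open Fermat.Agent.S24 Fermat.Agent.S28.H86
open Fermat.Agent.A2.H129 Fermat.Agent.A2.H553 Fermat.Agent.A2.H528
open Fermat.Agent.Ribet.H884

section Dict

variable {p : ℕ} (hp : p ≠ 0) {A : ValuationSubring Kbar} (hA : A.LiesOverPrime p) (N : ℕ)

/-- the coercion of a quotient by a constant -/
theorem coe_mul_cst_inv (f : FF N) (c : Kbar) :
    ((f * (algebraMap Kbar (FF N) c)⁻¹ : FF N) : LaurentSeries Kbar) =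
      (f : LaurentSeries Kbar) * (Fermat.Agent.A2.H708.cst c)⁻¹ := rfl

/-- **Dictionary, series form ⟹ valuation form.** -/
theorem exists_mem_of_isRedInf [NeZero N] {f : FF N} {r : LaurentSeries (kA A)}
    (h : IsRedInf N A f r) :
    ∃ c : Kbar, c ≠ 0 ∧ ∃ hm : f * (algebraMap Kbar (FF N) c)⁻¹ ∈ VInf p A hA N hp,
      redV p A hA N hp ⟨_, hm⟩ = r := by
  obtain ⟨c, U₁, U₂, hc, hU₁, hU₂, hrel, hr⟩ := h
  have hC : Fermat.Agent.A2.H708.cst c ≠ 0 := Fermat.Agent.A2.H708.cst_ne_zero hc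
  have hrel' : ((f * (algebraMap Kbar (FF N) c)⁻¹ : FF N) : LaurentSeries Kbar) *
      inclL A.toSubring U₂ = inclL A.toSubring U₁ := by
    rw [coe_mul_cst_inv]
    have e : (f : LaurentSeries Kbar) * (Fermat.Agent.A2.H708.cst c)⁻¹ * inclL A.toSubring U₂ =
        (Fermat.Agent.A2.H708.cst c)⁻¹ * ((f : LaurentSeries Kbar) * inclL A.toSubring U₂) := by
      ring
    rw [e]
    have hrel2 : (f : LaurentSeries Kbar) * inclL A.toSubring U₂ =
        Fermat.Agent.A2.H708.cst c * inclL A.toSubring U₁ := hrel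
    rw [hrel2, ← mul_assoc, inv_mul_cancel₀ hC, one_mul]
  have hb : redL (resA A) U₂ ≠ 0 := hU₂
  have hm : f * (algebraMap Kbar (FF N) c)⁻¹ ∈ VInf p A hA N hp := ⟨U₁, U₂, hb, hrel'⟩
  refine ⟨c, hc, hm, ?_⟩
  have hred : redV p A hA N hp ⟨_, hm⟩ = redL (resA A) U₁ / redL (resA A) U₂ :=
    redInf_eq (gaussInput_modular A hp hA N) ⟨_, hm⟩ U₁ U₂ hb hrel'
  rw [hred, div_eq_iff hb]
  exact hr.symm

/-- **Dictionary, valuation form ⟹ series form.** -/
theorem isRedInf_of_mem [NeZero N] {f : FF N} {c : Kbar} (hc : c ≠ 0)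
    (hm : f * (algebraMap Kbar (FF N) c)⁻¹ ∈ VInf p A hA N hp)
    {r : LaurentSeries (kA A)} (hr : redV p A hA N hp ⟨_, hm⟩ = r)
    (hr0 : r ≠ 0) : IsRedInf N A f r := by
  obtain ⟨a, b, hb, hab⟩ := hm
  have hred : redV p A hA N hp ⟨f * (algebraMap Kbar (FF N) c)⁻¹, ⟨a, b, hb, hab⟩⟩ =
      redL (resA A) a / redL (resA A) b :=
    redInf_eq (gaussInput_modular A hp hA N)
      ⟨f * (algebraMap Kbar (FF N) c)⁻¹, ⟨a, b, hb, hab⟩⟩ a b hb hab
  rw [hr] at hred
  have hra : r * redL (resA A) b = redL (resA A) a := by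
    rw [hred, div_mul_cancel₀ _ hb]
  have ha : redL (resA A) a ≠ 0 := by
    rw [← hra]
    exact mul_ne_zero hr0 hb
  have hC : Fermat.Agent.A2.H708.cst c ≠ 0 := Fermat.Agent.A2.H708.cst_ne_zero hc
  refine ⟨c, a, b, hc, ha, hb, ?_, hra⟩
  have hab' : (f : LaurentSeries Kbar) * (Fermat.Agent.A2.H708.cst c)⁻¹ * inclL A.toSubring b =
      inclL A.toSubring a := hab
  show (f : LaurentSeries Kbar) * inclL A.toSubring b =
    Fermat.Agent.A2.H708.cst c * inclL A.toSubring a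
  rw [← hab']
  field_simp

end Dict

/-! ## Lifting `F_k` to `V∞` -/

section LiftFull

variable {p : ℕ} (hp : p ≠ 0) {A : ValuationSubring Kbar} (hA : A.LiesOverPrime p)

/-- the reduction of a constant of `A` -/
theorem redInf_algebraMap (N : ℕ) (a : A)
    (hm : algebraMap Kbar (FF N) (a : Kbar) ∈ VInf p A hA N hp) :
    redV p A hA N hp ⟨_, hm⟩ =
      algebraMap (kA A) (LaurentSeries (kA A)) (IsLocalRing.residue A a) := by
  have hcoe : ((algebraMap Kbar (FF N) (a : Kbar) : FF N) : LaurentSeries Kbar) =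
      inclL A.toSubring (HahnSeries.C a) := by
    rw [inclL_C]
    show algebraMap Kbar (LaurentSeries Kbar) (a : Kbar) = _
    rw [algebraMap_laurentSeries_eq_single]
    rfl
  have h1 : redV p A hA N hp ⟨_, hm⟩ =
      redA A ⟨inclL A.toSubring (HahnSeries.C a), inclL_mem_gaussRing (resA A) _⟩ := by
    show redA A _ = redA A _
    congr 1
    exact Subtype.ext hcoe
  rw [h1, redA_inclL, redL_C, algebraMap_laurentSeries_eq_single]
  rfl

/-- the reduction of `j(t^d)` -/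
theorem redInf_jFd (N : ℕ) [NeZero N] (d : ℕ) [NeZero d] (hd : d ∣ N)
    (hm : jFd N d hd ∈ VInf p A hA N hp) :
    redV p A hA N hp ⟨_, hm⟩ = qExpand (kA A) d (jqModC (kA A)) := by
  have hcoe : ((jFd N d hd : FF N) : LaurentSeries Kbar) =
      inclL A.toSubring (coeffMap (Int.castRingHom ↥A.toSubring) (jZ d)) := by
    rw [coe_jFd_int, intEmb_eq_inclL A]
  have h1 : redV p A hA N hp ⟨_, hm⟩ =
      redA A ⟨inclL A.toSubring (coeffMap (Int.castRingHom ↥A.toSubring) (jZ d)),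
        inclL_mem_gaussRing (resA A) _⟩ := by
    show redA A _ = redA A _
    congr 1
    exact Subtype.ext hcoe
  rw [h1, redA_inclL]
  show coeffMap (resA A) (coeffMap (Int.castRingHom ↥A.toSubring) (jZ d)) = _
  rw [coeffMap_coeffMap, jZ, coeffMap_qExpand, coeffMap_jqModC]

/-- **Lifting.**  Every element of `F_k = k(X₀(M))`, `M ∣ N`, is the reduction of an element of
`V∞` of level `N`. -/
theorem exists_lift_full (M N : ℕ) [NeZero N] (hMN : M ∣ N) (s : LaurentSeries (kA A))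
    (hs : s ∈ modularFunctionFieldFullC (kA A) M) :
    ∃ (g : FF N) (hg : g ∈ VInf p A hA N hp),
      redV p A hA N hp ⟨g, hg⟩ = s := by
  induction hs using IntermediateField.adjoin_induction with
  | mem x hx =>
      obtain ⟨d, hne, hd, rfl⟩ := hx
      haveI := hne
      have hm : jFd N d (hd.trans hMN) ∈ VInf p A hA N hp :=
        mem_Vinf_of_intEmb A hp hA N (coe_jFd_int N d (hd.trans hMN))
      exact ⟨_, hm, redInf_jFd hp hA N d (hd.trans hMN) hm⟩
  | algebraMap c =>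
      obtain ⟨a, rfl⟩ := IsLocalRing.residue_surjective (R := A) c
      have hm : algebraMap Kbar (FF N) (a : Kbar) ∈ VInf p A hA N hp :=
        (algebraMap_mem_Vinf_iff (gaussInput_modular A hp hA N)).mpr a.2
      exact ⟨_, hm, redInf_algebraMap hp hA N a hm⟩
  | add x y _ _ ihx ihy =>
      obtain ⟨g, hg, rfl⟩ := ihx
      obtain ⟨g', hg', rfl⟩ := ihy
      refine ⟨g + g', add_mem hg hg', ?_⟩
      rw [← map_add]
      rfl
  | mul x y _ _ ihx ihy =>
      obtain ⟨g, hg, rfl⟩ := ihx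
      obtain ⟨g', hg', rfl⟩ := ihy
      refine ⟨g * g', mul_mem hg hg', ?_⟩
      rw [← map_mul]
      rfl
  | inv x _ ihx =>
      obtain ⟨g, hg, rfl⟩ := ihx
      by_cases h0 : redV p A hA N hp ⟨g, hg⟩ = 0
      · refine ⟨0, zero_mem _, ?_⟩
        rw [h0, inv_zero]
        exact map_zero _
      · have hlt : ¬ (VInf p A hA N hp).valuation g < 1 := fun hlt =>
          h0 ((redInf_eq_zero_iff (gaussInput_modular A hp hA N) ⟨g, hg⟩).mpr hlt)
        have hinv : g⁻¹ ∈ VInf p A hA N hp := by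
          rw [valuation_lt_one_iff_mem] at hlt
          by_contra hcon
          exact hlt ⟨hg, Or.inr hcon⟩
        have hg0 : g ≠ 0 := by
          rintro rfl
          exact h0 (map_zero _)
        refine ⟨g⁻¹, hinv, ?_⟩
        have hprod : (⟨g⁻¹, hinv⟩ : ↥(VInf p A hA N hp)) * ⟨g, hg⟩ = 1 :=
          Subtype.ext (inv_mul_cancel₀ hg0)
        have h2 : redV p A hA N hp ⟨g⁻¹, hinv⟩ *
            redV p A hA N hp ⟨g, hg⟩ = 1 := by
          rw [← map_mul, hprod, map_one]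
        exact eq_inv_of_mul_eq_one_left h2

include hp hA in
/-- For `s ≠ 0` in `F_k`: `s` is a reduction (in the sense of `H884.IsRedInf`) of a function. -/
theorem exists_isRedInf_full (M N : ℕ) [NeZero N] (hMN : M ∣ N) (s : LaurentSeries (kA A))
    (hs : s ∈ modularFunctionFieldFullC (kA A) M) (hs0 : s ≠ 0) :
    ∃ g : FF N, g ≠ 0 ∧ IsRedInf N A g s := by
  obtain ⟨g, hg, hred⟩ := exists_lift_full hp hA M N hMN s hs
  have hg0 : g ≠ 0 := by
    rintro rfl
    apply hs0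
    rw [← hred]
    exact map_zero _
  refine ⟨g, hg0, ?_⟩
  have e : g * (algebraMap Kbar (FF N) 1)⁻¹ = g := by rw [map_one, inv_one, mul_one]
  have hm : g * (algebraMap Kbar (FF N) 1)⁻¹ ∈ VInf p A hA N hp := by rw [e]; exact hg
  refine isRedInf_of_mem hp hA N one_ne_zero hm ?_ hs0
  rw [← hred]
  congr 1
  exact Subtype.ext e

end LiftFull

/-! ## SPLIT-LIFT -/

section Main

variable {p M' : ℕ} [NeZero (p * M')] {A : ValuationSubring Kbar}

theorem isRedInf_pow {N : ℕ} [NeZero N] {f : FF N} {r : LaurentSeries (kA A)}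
    (h : IsRedInf N A f r) (n : ℕ) : IsRedInf N A (f ^ n) (r ^ n) := by
  induction n with
  | zero => rw [pow_zero, pow_zero]; exact isRedInf_one
  | succ n ih => rw [pow_succ, pow_succ]; exact IsRedInf.mul ih h

/-- **SPLIT-LIFT on `C∞`.**  If `f` has a reduction `r ∈ k(X₀(M')) ∩ k((t^p))` on `C∞`, then
`f = g ^ p · u` where `u` has reduction `1` on `C∞`. -/
theorem splitLift_inf (hpp : p.Prime) (hpM : ¬ p ∣ M') (hA : A.LiesOverPrime p)
    {f : FF (p * M')} {r : LaurentSeries (kA A)} (hred : IsRedInf (p * M') A f r)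
    (hr : r ∈ modularFunctionFieldFullC (kA A) M') (hsplit : SplitSeries p r) :
    ∃ g : FF (p * M'), g ≠ 0 ∧ IsRedInf (p * M') A (f * (g ^ p)⁻¹) 1 := by
  obtain ⟨hac, hch⟩ := Fermat.Agent.Ribet.H939.resField p hpp A hA
  haveI := hac
  haveI := hch
  haveI : Fact p.Prime := ⟨hpp⟩
  have hM' : M' ≠ 0 := by
    rintro rfl
    exact hpM (dvd_zero p)
  obtain ⟨s, hs, hsr⟩ := exists_root_in_full p M' hM' hpM r hr hsplit
  have hr0 : r ≠ 0 := IsRedInf.ne_zero hred
  have hs0 : s ≠ 0 := by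
    rintro rfl
    rw [zero_pow hpp.ne_zero] at hsr
    exact hr0 hsr.symm
  obtain ⟨g, hg0, hg⟩ := exists_isRedInf_full hpp.ne_zero hA M' (p * M')
    (dvd_mul_left M' p) s hs hs0
  refine ⟨g, hg0, ?_⟩
  have h1 : IsRedInf (p * M') A (f * (g ^ p)⁻¹) (r * (s ^ p)⁻¹) :=
    IsRedInf.mul hred (IsRedInf.inv (isRedInf_pow hg p))
  rw [hsr, mul_inv_cancel₀ hr0] at h1
  exact h1

/-- **SPLIT-LIFT on `C₀`.** -/
theorem splitLift_zero (hpp : p.Prime) (hpM : ¬ p ∣ M') (hA : A.LiesOverPrime p)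
    {f : FF (p * M')} {r : LaurentSeries (kA A)} (hred : IsRedZero (p * M') A f r)
    (hr : r ∈ modularFunctionFieldFullC (kA A) M') (hsplit : SplitSeries p r) :
    ∃ g : FF (p * M'), g ≠ 0 ∧ IsRedZero (p * M') A (f * (g ^ p)⁻¹) 1 := by
  obtain ⟨g, hg0, hg⟩ := splitLift_inf hpp hpM hA (f := wF (p * M') f) hred hr hsplit
  refine ⟨wF (p * M') g, by simpa using hg0, ?_⟩
  show IsRedInf (p * M') A (wF (p * M') (f * (wF (p * M') g ^ p)⁻¹)) 1
  rw [map_mul, map_inv₀, map_pow, wF_wF]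
  exact hg

/-- **SPLIT-LIFT** for a split Kummer generator: on both components `f` is a `p`-th power times
a function with reduction `1`. -/
theorem splitGen_lift (hpp : p.Prime) (hpM : ¬ p ∣ M') (hA : A.LiesOverPrime p)
    {f : FF (p * M')} (h : SplitGen p M' A f) :
    (∃ g : FF (p * M'), g ≠ 0 ∧ IsRedInf (p * M') A (f * (g ^ p)⁻¹) 1) ∧
    (∃ g : FF (p * M'), g ≠ 0 ∧ IsRedZero (p * M') A (f * (g ^ p)⁻¹) 1) := by
  obtain ⟨r₁, r₂, h1, h2, ⟨k₁, hk₁, -, -⟩, ⟨k₂, hk₂, -, -⟩, hs1, hs2⟩ := h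
  exact ⟨splitLift_inf hpp hpM hA h1 (hk₁ ▸ k₁.2) hs1,
    splitLift_zero hpp hpM hA h2 (hk₂ ▸ k₂.2) hs2⟩

/-- Reduction `1` in valuation form: `u / c ∈ 1 + 𝔪_{V∞}` for a constant `c ≠ 0`. -/
theorem oneAddNonunits_of_isRedInf_one (hp : p ≠ 0) (hA : A.LiesOverPrime p) {N : ℕ} [NeZero N]
    {u : FF N} (h : IsRedInf N A u 1) :
    ∃ c : Kbar, c ≠ 0 ∧
      OneAddNonunits (VInf p A hA N hp) (u * (algebraMap Kbar (FF N) c)⁻¹) := by
  obtain ⟨c, hc, hm, hred⟩ := exists_mem_of_isRedInf hp hA N h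
  refine ⟨c, hc, ?_⟩
  have hone : (1 : FF N) ∈ VInf p A hA N hp := one_mem _
  have hsub : u * (algebraMap Kbar (FF N) c)⁻¹ - 1 ∈ VInf p A hA N hp := sub_mem hm hone
  have h0 : redV p A hA N hp ⟨_, hsub⟩ = 0 := by
    have e : (⟨u * (algebraMap Kbar (FF N) c)⁻¹ - 1, hsub⟩ : ↥(VInf p A hA N hp)) =
        ⟨u * (algebraMap Kbar (FF N) c)⁻¹, hm⟩ - 1 := rfl
    rw [e, map_sub, map_one, hred, sub_self]
  exact (redInf_eq_zero_iff (gaussInput_modular A hp hA N) ⟨_, hsub⟩).mp h0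

/-- **SPLIT-LIFT, valuation form** (`H573.RedPow`): a split Kummer generator lies in
`ℚ̄ˣ · (F_Nˣ)^p · (1 + 𝔪_{V∞})`, and so does `w_N f`. -/
theorem splitGen_redPow (hpp : p.Prime) (hpM : ¬ p ∣ M') (hA : A.LiesOverPrime p)
    {f : FF (p * M')} (h : SplitGen p M' A f) :
    RedPow p A hA (p * M') hpp.ne_zero f ∧
      RedPow p A hA (p * M') hpp.ne_zero (wF (p * M') f) := by
  obtain ⟨⟨g, hg0, hg⟩, ⟨g', hg0', hg'⟩⟩ := splitGen_lift hpp hpM hA h
  constructor
  · obtain ⟨c, hc, hu⟩ := oneAddNonunits_of_isRedInf_one hpp.ne_zero hA hg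
    refine ⟨c, hc, g, hg0, ?_⟩
    have e : f * (cst (p * M') c)⁻¹ * (g ^ p)⁻¹ =
        f * (g ^ p)⁻¹ * (algebraMap Kbar (FF (p * M')) c)⁻¹ := by
      rw [cst]; ring
    rw [e]
    exact hu
  · have hg'' : IsRedInf (p * M') A (wF (p * M') (f * (g' ^ p)⁻¹)) 1 := hg'
    obtain ⟨c, hc, hu⟩ := oneAddNonunits_of_isRedInf_one hpp.ne_zero hA hg''
    refine ⟨c, hc, wF (p * M') g', by simpa using hg0', ?_⟩
    have e : wF (p * M') f * (cst (p * M') c)⁻¹ * (wF (p * M') g' ^ p)⁻¹ =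
        wF (p * M') (f * (g' ^ p)⁻¹) * (algebraMap Kbar (FF (p * M')) c)⁻¹ := by
      rw [cst, map_mul, map_inv₀, map_pow]; ring
    rw [e]
    exact hu

end Main

end Fermat.Agent.Ribet.H573
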