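import Fermat.Agent.Ribet.H573.WACore
import Fermat.Agent.Ribet.H573.SplitLift
import Fermat.Agent.Ribet.H220.S2Spec
import Fermat.Agent.A3.H675.Ant
import Fermat.Agent.A2.H553.Bridge708

/-!
# Row 38, WALL-p, (S2): DICT piece WEAK-APPROX and the leaf SL (helper573)

`N = p · M'`, `A` a valuation subring of `ℚ̄` over `p`, `V∞ = H708.Vinf N A`, `V₀ = H708.Vzero N A`
(the two Gauss valuation rings of `FF N = ℚ̄(X₀(N))`), vocabulary `OneMod`, `Deep`, `DeepC` of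
`Ribet/H220/S2Spec.lean`.

* `gaussLike_Vinf`, `gaussLike_Vzero` : `V∞`, `V₀` are Gauss-like over `A` (`WACore.lean`);
* `rankOne`                : `A` has rank one;
* `exists_idem_gauss`      : approximate idempotents: `1 - e ∈ d₁ V∞`, `e ∈ d₂ V₀` for all
                             constants `d₁, d₂ ≠ 0`;
* `exists_approx_gauss`    : `a ∈ g₁ (1 + r V∞) ∩ g₂ (1 + r V₀)`;
* **`deep_common`**        : WEAK-APPROX: `Deep V∞ p ϖ f`, `Deep V₀ p ϖ f` ⟹ ONE `g` with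
                             `f = g ^ p · u`, `u ∈ (1 + ϖ V∞) ∩ (1 + ϖ V₀)`;
* `deep_of_deepC`          : constants are `p`-th powers in `ℚ̄`;
* **`splitLift`**          : the leaf `H220.SplitLiftStatement` (VERBATIM);
* **`splitGen_common`**    : a split Kummer generator is `g ^ p · u` with ONE `g` and
                             `u ∈ (1 + ϖ V∞) ∩ (1 + ϖ V₀)`, `ϖ ≠ 0` a nonunit of `A`;
* `splitGen_common_oneAdd` : the same in the form `H129.OneAddNonunits` at `V∞` for `u` and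
                             `w_N u` (rings `H708.Vinf` and `H553.VinfModular`).
-/

set_option autoImplicit false
set_option linter.unusedSectionVars false
set_option linter.style.haveILetI false
set_option synthInstance.maxHeartbeats 400000
set_option maxHeartbeats 1000000

noncomputable section

namespace Fermat.Agent.Ribet.H573

open AlgebraicCurve ModularCurve HahnSeries
open Fermat.Agent.S24 Fermat.Agent.A2.H708 Fermat.Agent.A2.H528 Fermat.Agent.A2.H129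
open Fermat.Agent.Ribet.H884 Fermat.Agent.Ribet.H220

section Gauss

variable (N : ℕ) [NeZero N] (A : ValuationSubring Kbar) {ℓ : ℕ} (hℓ : ℓ ≠ 0)
  (hA : (ℓ : Kbar) ∈ A.nonunits)

/-- `V∞` is Gauss-like over `A`. -/
theorem gaussLike_Vinf : WA.GaussLike A (Vinf N A hℓ hA) :=
  ⟨fun c => algebraMap_mem_gaussInf_iff (intGen_full N)
      (attainsMax_Qbar hℓ hA (modularFunctionFieldFull N)) c,
    fun _ hf => exists_const_mul_unit (intGen_full N)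
      (attainsMax_Qbar hℓ hA (modularFunctionFieldFull N)) hf⟩

/-- `V₀` is Gauss-like over `A`. -/
theorem gaussLike_Vzero : WA.GaussLike A (Vzero N A hℓ hA) := by
  refine ⟨fun c => ?_, fun f hf => ?_⟩
  · rw [← (gaussLike_Vinf N A hℓ hA).1 c]
    show wF N (algebraMap Kbar (FF N) c) ∈ Vinf N A hℓ hA ↔ _
    rw [AlgEquiv.commutes]
  · have hf' : wF N f ≠ 0 := fun h => hf ((map_eq_zero_iff _ (wF N).injective).mp h)
    obtain ⟨c, hc, hu⟩ := (gaussLike_Vinf N A hℓ hA).2 (wF N f) hf'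
    refine ⟨c, hc, ?_⟩
    have h1 : IsUnitOf (Vinf N A hℓ hA) (wF N (f * (algebraMap Kbar (FF N) c)⁻¹)) := by
      rw [map_mul, map_inv₀, AlgEquiv.commutes]
      exact hu
    exact (isUnitOf_Vzero_iff hℓ hA).2 h1

end Gauss

/-- every element of `ℚ̄` is algebraic over `ℤ` -/
theorem isAlgebraic_int_Qbar (x : Kbar) : IsAlgebraic ℤ x :=
  (IsFractionRing.isAlgebraic_iff ℤ ℚ Kbar).mpr
    ((AlgebraicClosure.isAlgebraic ℚ).isAlgebraic x)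

/-- **Rank one** of a valuation subring of `ℚ̄` over a prime. -/
theorem rankOne (A : ValuationSubring Kbar) {ℓ : ℕ} (hℓ : ℓ.Prime)
    (hA : (ℓ : Kbar) ∈ A.nonunits) :
    ∀ a b : Kbar, a ∈ A.nonunits → b ≠ 0 → ∃ n : ℕ, a ^ n / b ∈ A :=
  Fermat.Agent.A3.H675.harch A isAlgebraic_int_Qbar hℓ hA

section Approx

variable (N : ℕ) [NeZero N] (A : ValuationSubring Kbar) {ℓ : ℕ} (hℓ : ℓ.Prime)
  (hA : (ℓ : Kbar) ∈ A.nonunits) (hN : ℓ ∣ N)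

include hN in
theorem vinf_ne_vzero : Vinf N A hℓ.ne_zero hA ≠ Vzero N A hℓ.ne_zero hA := by
  haveI : Fact ℓ.Prime := ⟨hℓ⟩
  exact fun h => Vzero_ne_Vinf hℓ.ne_zero hA hN h.symm

include hN in
/-- **Approximate idempotents** for `(V∞, V₀)`: `1 - e ∈ d₁ V∞` and `e ∈ d₂ V₀`. -/
theorem exists_idem_gauss {d₁ d₂ : Kbar} (hd₁ : d₁ ≠ 0) (hd₂ : d₂ ≠ 0) :
    ∃ e : FF N, (1 - e) * (cF N d₁)⁻¹ ∈ Vinf N A hℓ.ne_zero hA ∧
      e * (cF N d₂)⁻¹ ∈ Vzero N A hℓ.ne_zero hA :=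
  WA.exists_idem (rankOne A hℓ hA) (gaussLike_Vinf N A hℓ.ne_zero hA)
    (gaussLike_Vzero N A hℓ.ne_zero hA) (vinf_ne_vzero N A hℓ hA hN) hd₁ hd₂

include hN in
/-- **Weak approximation** for `(V∞, V₀)`: `a ∈ g₁ (1 + r V∞) ∩ g₂ (1 + r V₀)`. -/
theorem exists_approx_gauss {g₁ g₂ : FF N} (hg₁ : g₁ ≠ 0) (hg₂ : g₂ ≠ 0) {r : Kbar}
    (hr : r ≠ 0) :
    ∃ a : FF N, OneMod (Vinf N A hℓ.ne_zero hA) (cF N r) (a * g₁⁻¹) ∧
      OneMod (Vzero N A hℓ.ne_zero hA) (cF N r) (a * g₂⁻¹) :=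
  WA.exists_approx_two (rankOne A hℓ hA) (gaussLike_Vinf N A hℓ.ne_zero hA)
    (gaussLike_Vzero N A hℓ.ne_zero hA) (vinf_ne_vzero N A hℓ hA hN) hg₁ hg₂ hr

include hN in
/-- **WEAK-APPROX (one `g` for both components).**  If `f ∈ (Fˣ)^p (1 + ϖ V∞)` and
`f ∈ (Fˣ)^p (1 + ϖ V₀)`, `ϖ ≠ 0` a nonunit of `A`, then `f = g ^ p · u` with
`u ∈ (1 + ϖ V∞) ∩ (1 + ϖ V₀)`. -/
theorem deep_common (p : ℕ) {ϖ : Kbar} (hϖ0 : ϖ ≠ 0) (hϖ : ϖ ∈ A.nonunits) {f : FF N}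
    (h₁ : Deep (Vinf N A hℓ.ne_zero hA) p (cF N ϖ) f)
    (h₂ : Deep (Vzero N A hℓ.ne_zero hA) p (cF N ϖ) f) :
    ∃ g u : FF N, g ≠ 0 ∧ f = g ^ p * u ∧ OneMod (Vinf N A hℓ.ne_zero hA) (cF N ϖ) u ∧
      OneMod (Vzero N A hℓ.ne_zero hA) (cF N ϖ) u := by
  obtain ⟨g₁, u₁, hg₁, hf₁, hu₁⟩ := h₁
  obtain ⟨g₂, u₂, hg₂, hf₂, hu₂⟩ := h₂
  exact WA.exists_common_root (rankOne A hℓ hA) (gaussLike_Vinf N A hℓ.ne_zero hA)
    (gaussLike_Vzero N A hℓ.ne_zero hA) (vinf_ne_vzero N A hℓ hA hN) p hϖ0 hϖ hg₁ hg₂ hf₁ hf₂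
    hu₁ hu₂

end Approx

section Const

variable {N : ℕ} [NeZero N]

/-- Constants are `p`-th powers in `ℚ̄`: `DeepC` implies `Deep`. -/
theorem deep_of_deepC {V : ValuationSubring (FF N)} {p : ℕ} (hp : 0 < p) {r f : FF N}
    (h : DeepC Kbar V p r f) : Deep V p r f := by
  obtain ⟨c, g, u, hc, hg, hf, hu⟩ := h
  obtain ⟨γ, hγ⟩ := IsAlgClosed.exists_pow_nat_eq c hp
  have hγ0 : γ ≠ 0 := by
    rintro rfl
    rw [zero_pow hp.ne'] at hγ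
    exact hc hγ.symm
  refine ⟨algebraMap Kbar (FF N) γ * g,
    u, mul_ne_zero (by rwa [Ne, map_eq_zero_iff _ (algebraMap Kbar (FF N)).injective]) hg, ?_, hu⟩
  rw [hf, mul_pow, ← map_pow, hγ]

theorem deepC_of_deep {V : ValuationSubring (FF N)} {p : ℕ} {r f : FF N}
    (h : Deep V p r f) : DeepC Kbar V p r f := by
  obtain ⟨g, u, hg, hf, hu⟩ := h
  exact ⟨1, g, u, one_ne_zero, hg, by rw [map_one, one_mul]; exact hf, hu⟩

end Const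

section SL

variable {p M' : ℕ} [NeZero (p * M')] {A : ValuationSubring Kbar}

/-- the ring `V∞` of `A2/H553` is the ring `V∞` of `A2/H708` -/
theorem vInf_eq_Vinf (hp : p ≠ 0) (hA : A.LiesOverPrime p) (N : ℕ) [NeZero N] :
    VInf p A hA N hp = Vinf N A hp hA :=
  Fermat.Agent.A2.H553.Vinf_eq_gaussInf (Fermat.Agent.A2.H553.gaussInput_modular A hp hA N)
    (intGen_full N) (attainsMax_Qbar hp hA (modularFunctionFieldFull N))

/-- reduction `1` on `C∞` ⟹ depth one with a constant at `V∞` -/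
theorem deepC_of_isRedInf_one (hpp : p.Prime) (hA : A.LiesOverPrime p) {N : ℕ} [NeZero N]
    {f g : FF N} (hg : g ≠ 0) (h : IsRedInf N A (f * (g ^ p)⁻¹) 1) :
    ∃ ϖ : Kbar, ϖ ≠ 0 ∧ ϖ ∈ A.nonunits ∧ DeepC Kbar (Vinf N A hpp.ne_zero hA) p (cF N ϖ) f := by
  obtain ⟨c, hc, hu⟩ := oneAddNonunits_of_isRedInf_one hpp.ne_zero hA h
  rw [vInf_eq_Vinf hpp.ne_zero hA N] at hu
  have hp0 : (p : Kbar) ≠ 0 := by exact_mod_cast hpp.ne_zero
  obtain ⟨ϖ, hϖ0, hϖ, hx⟩ :=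
    (gaussLike_Vinf N A hpp.ne_zero hA).exists_depth hu hp0 hA
  refine ⟨ϖ, hϖ0, hϖ, c, g, _, hc, hg, ?_, hx⟩
  have hc' : algebraMap Kbar (FF N) c ≠ 0 := by
    rwa [Ne, map_eq_zero_iff _ (algebraMap Kbar (FF N)).injective]
  have hgp : g ^ p ≠ 0 := pow_ne_zero p hg
  field_simp

/-- membership in `V₀` -/
theorem mem_Vzero_iff (hp0 : p ≠ 0) (hA : A.LiesOverPrime p) {N : ℕ} [NeZero N] {y : FF N} :
    y ∈ Vzero N A hp0 hA ↔ wF N y ∈ Vinf N A hp0 hA := Iff.rfl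

/-- transport of `1 + ϖ V` along `w_N` -/
theorem oneMod_Vzero_wF (hp0 : p ≠ 0) (hA : A.LiesOverPrime p) {N : ℕ} [NeZero N]
    {ϖ : Kbar} {u : FF N} (h : OneMod (Vinf N A hp0 hA) (cF N ϖ) u) :
    OneMod (Vzero N A hp0 hA) (cF N ϖ) (wF N u) := by
  obtain ⟨y, hy, hu⟩ := h
  have hy' : wF N y ∈ Vzero N A hp0 hA := by
    rw [mem_Vzero_iff, wF_wF]
    exact hy
  refine ⟨wF N y, hy', ?_⟩
  rw [hu, map_add, map_one, map_mul]
  congr 2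
  exact AlgEquiv.commutes (wF N) ϖ

/-- transport of `DeepC` along `w_N` -/
theorem deepC_Vzero_of_wF (hp0 : p ≠ 0) (hA : A.LiesOverPrime p) {N : ℕ} [NeZero N]
    {q : ℕ} {ϖ : Kbar} {f : FF N} (h : DeepC Kbar (Vinf N A hp0 hA) q (cF N ϖ) (wF N f)) :
    DeepC Kbar (Vzero N A hp0 hA) q (cF N ϖ) f := by
  obtain ⟨c, g₁, u, hc, hg₁, hf, hu⟩ := h
  have hg₁' : wF N g₁ ≠ 0 := fun h0 => hg₁ ((map_eq_zero_iff _ (wF N).injective).mp h0)
  have hc' : wF N (algebraMap Kbar (FF N) c) = algebraMap Kbar (FF N) c :=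
    AlgEquiv.commutes (wF N) c
  have e : f = algebraMap Kbar (FF N) c * wF N g₁ ^ q * wF N u := by
    calc f = wF N (wF N f) := (wF_wF N f).symm
      _ = wF N (algebraMap Kbar (FF N) c * g₁ ^ q * u) := by rw [hf]
      _ = wF N (algebraMap Kbar (FF N) c) * wF N g₁ ^ q * wF N u := by
          rw [map_mul, map_mul, map_pow]
      _ = algebraMap Kbar (FF N) c * wF N g₁ ^ q * wF N u := by rw [hc']
  exact ⟨c, wF N g₁, wF N u, hc, hg₁', e, oneMod_Vzero_wF hp0 hA hu⟩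

/-- reduction `1` on `C₀` ⟹ depth one with a constant at `V₀` -/
theorem deepC_of_isRedZero_one (hpp : p.Prime) (hA : A.LiesOverPrime p) {N : ℕ} [NeZero N]
    {f g : FF N} (hg : g ≠ 0) (h : IsRedZero N A (f * (g ^ p)⁻¹) 1) :
    ∃ ϖ : Kbar, ϖ ≠ 0 ∧ ϖ ∈ A.nonunits ∧
      DeepC Kbar (Vzero N A hpp.ne_zero hA) p (cF N ϖ) f := by
  have h0 : IsRedInf N A (wF N (f * (g ^ p)⁻¹)) 1 := h
  have e : wF N (f * (g ^ p)⁻¹) = wF N f * ((wF N g) ^ p)⁻¹ := by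
    rw [map_mul, map_inv₀, map_pow]
  rw [e] at h0
  have hg' : wF N g ≠ 0 := fun h1 => hg ((map_eq_zero_iff _ (wF N).injective).mp h1)
  obtain ⟨ϖ, hϖ0, hϖ, hd⟩ := deepC_of_isRedInf_one hpp hA hg' h0
  exact ⟨ϖ, hϖ0, hϖ, deepC_Vzero_of_wF hpp.ne_zero hA hd⟩

/-- **SL** (`Ribet/H220/S2Spec.lean`): the split-lift leaf of the (S2) chain. -/
theorem splitLift : SplitLiftStatement := by
  intro p M' _ _ _ hp hpM A hA f _ hfS
  obtain ⟨⟨g, hg0, hg⟩, ⟨g', hg0', hg'⟩⟩ := splitGen_lift hp hpM hA hfS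
  exact ⟨deepC_of_isRedInf_one hp hA hg0 hg, deepC_of_isRedZero_one hp hA hg0' hg'⟩

/-- **WEAK-APPROX for split Kummer generators**: `f = g ^ p · u` with ONE `g` and
`u ∈ (1 + ϖ V∞) ∩ (1 + ϖ V₀)` for a nonzero nonunit `ϖ` of `A`. -/
theorem splitGen_common [NeZero M'] [NeZero p] (hpp : p.Prime) (hpM : ¬ p ∣ M')
    (hA : A.LiesOverPrime p) {f : FF (p * M')} (h : SplitGen p M' A f) :
    ∃ (ϖ : Kbar) (g u : FF (p * M')), ϖ ≠ 0 ∧ ϖ ∈ A.nonunits ∧ g ≠ 0 ∧ f = g ^ p * u ∧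
      OneMod (Vinf (p * M') A hpp.ne_zero hA) (cF (p * M') ϖ) u ∧
      OneMod (Vzero (p * M') A hpp.ne_zero hA) (cF (p * M') ϖ) u := by
  obtain ⟨⟨g₁, hg₁0, hg₁⟩, ⟨g₂, hg₂0, hg₂⟩⟩ := splitGen_lift hpp hpM hA h
  obtain ⟨ϖ₁, hϖ₁0, hϖ₁, hd₁⟩ := deepC_of_isRedInf_one hpp hA hg₁0 hg₁
  obtain ⟨ϖ₂, hϖ₂0, hϖ₂, hd₂⟩ := deepC_of_isRedZero_one hpp hA hg₂0 hg₂
  obtain ⟨ϖ, hϖ0, hϖ, ⟨x₁, hx₁, e₁⟩, ⟨x₂, hx₂, e₂⟩⟩ :=
    WA.exists_common_div A hϖ₁0 hϖ₂0 hϖ₁ hϖ₂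
  have hI : Deep (Vinf (p * M') A hpp.ne_zero hA) p (cF (p * M') ϖ) f := by
    obtain ⟨a, b, u, ha, hb, hf, hu⟩ := deep_of_deepC hpp.pos hd₁ |> fun h => deepC_of_deep h
    refine deep_of_deepC hpp.pos ⟨a, b, u, ha, hb, hf, ?_⟩
    refine WA.OneModV.mono (a := cF (p * M') x₁)
      ((gaussLike_Vinf (p * M') A hpp.ne_zero hA).1 x₁ |>.2 hx₁) ?_ hu
    rw [cF, cF, cF, ← map_mul, e₁]
  have hZ : Deep (Vzero (p * M') A hpp.ne_zero hA) p (cF (p * M') ϖ) f := by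
    obtain ⟨a, b, u, ha, hb, hf, hu⟩ := deep_of_deepC hpp.pos hd₂ |> fun h => deepC_of_deep h
    refine deep_of_deepC hpp.pos ⟨a, b, u, ha, hb, hf, ?_⟩
    refine WA.OneModV.mono (a := cF (p * M') x₂)
      ((gaussLike_Vzero (p * M') A hpp.ne_zero hA).1 x₂ |>.2 hx₂) ?_ hu
    rw [cF, cF, cF, ← map_mul, e₂]
  obtain ⟨g, u, hg, hf, hu₁, hu₂⟩ :=
    deep_common (p * M') A hpp hA (dvd_mul_right p M') p hϖ0 hϖ hI hZ
  exact ⟨ϖ, g, u, hϖ0, hϖ, hg, hf, hu₁, hu₂⟩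

/-- an element of `1 + ϖ V`, `ϖ ∈ 𝔪`, lies in `1 + 𝔪_V` -/
theorem oneAddNonunits_of_oneMod {F : Type*} [Field F] {V : ValuationSubring F} {r u : F}
    (hr : r ∈ V.nonunits) (h : OneMod V r u) : OneAddNonunits V u := by
  obtain ⟨y, hy, rfl⟩ := h
  show V.valuation (1 + r * y - 1) < 1
  rw [add_sub_cancel_left, map_mul]
  calc V.valuation r * V.valuation y ≤ V.valuation r * 1 :=
        mul_le_mul' le_rfl ((V.valuation_le_one_iff y).2 hy)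
    _ = V.valuation r := mul_one _
    _ < 1 := V.mem_nonunits_iff.1 hr

/-- **WEAK-APPROX for split Kummer generators**, form `1 + 𝔪`: ONE `g ≠ 0` such that
`u = f / g ^ p` and `w_N u` lie in `1 + 𝔪_{V∞}` (`V∞ = H708.Vinf = H553.VinfModular`). -/
theorem splitGen_common_oneAdd [NeZero M'] [NeZero p] (hpp : p.Prime) (hpM : ¬ p ∣ M')
    (hA : A.LiesOverPrime p) {f : FF (p * M')} (h : SplitGen p M' A f) :
    ∃ g : FF (p * M'), g ≠ 0 ∧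
      OneAddNonunits (Vinf (p * M') A hpp.ne_zero hA) (f * (g ^ p)⁻¹) ∧
      OneAddNonunits (Vinf (p * M') A hpp.ne_zero hA) (wF (p * M') (f * (g ^ p)⁻¹)) ∧
      OneAddNonunits (VInf p A hA (p * M') hpp.ne_zero) (f * (g ^ p)⁻¹) ∧
      OneAddNonunits (VInf p A hA (p * M') hpp.ne_zero) (wF (p * M') (f * (g ^ p)⁻¹)) := by
  obtain ⟨ϖ, g, u, hϖ0, hϖ, hg, hf, hu₁, hu₂⟩ := splitGen_common hpp hpM hA h
  have hgp : g ^ p ≠ 0 := pow_ne_zero p hg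
  have e : f * (g ^ p)⁻¹ = u := by
    rw [hf]
    field_simp
  have hϖV : cF (p * M') ϖ ∈ (Vinf (p * M') A hpp.ne_zero hA).nonunits :=
    (Vinf (p * M') A hpp.ne_zero hA).mem_nonunits_iff.2
      (((gaussLike_Vinf (p * M') A hpp.ne_zero hA).valuation_lt_one_iff ϖ).2
        (A.mem_nonunits_iff.1 hϖ))
  have hϖV' : cF (p * M') ϖ ∈ (Vzero (p * M') A hpp.ne_zero hA).nonunits :=
    (Vzero (p * M') A hpp.ne_zero hA).mem_nonunits_iff.2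
      (((gaussLike_Vzero (p * M') A hpp.ne_zero hA).valuation_lt_one_iff ϖ).2
        (A.mem_nonunits_iff.1 hϖ))
  have h1 : OneAddNonunits (Vinf (p * M') A hpp.ne_zero hA) u :=
    oneAddNonunits_of_oneMod hϖV hu₁
  have h2 : OneAddNonunits (Vinf (p * M') A hpp.ne_zero hA) (wF (p * M') u) :=
    (oneAddNonunits_Vzero_iff hpp.ne_zero hA).1 (oneAddNonunits_of_oneMod hϖV' hu₂)
  refine ⟨g, hg, ?_, ?_, ?_, ?_⟩
  · rw [e]
    exact h1
  · rw [e]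
    exact h2
  · rw [e, vInf_eq_Vinf hpp.ne_zero hA (p * M')]
    exact h1
  · rw [e, vInf_eq_Vinf hpp.ne_zero hA (p * M')]
    exact h2

end SL

end Fermat.Agent.Ribet.H573

end
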