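import Fermat.Agent.A2.H612.Kron
import Fermat.Agent.S18.H264.SepModular
import Fermat.Agent.S18.MOD.H396.SepLaurent
import Fermat.Agent.S37.H340.KronFrob

/-!
# Row 38, WALL-p, bridge SPLIT-LIFT, part 1: `p`-th roots in `k(X₀(M))` (helper573)

`k` a perfect field of characteristic `p`, `p ∤ M`, `F_k = modularFunctionFieldFullC k M ⊆ k((t))`.

* `exists_pow_eq_of_split` : a series `r ∈ k((t^p))` is a `p`-th power in `k((t))`;
* `root_mem_full`          : if `s ^ p ∈ F_k` then `s ∈ F_k`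
  (`s` is algebraic over `k(j̄)`, hence separable over it by `S18/H264`, so
  `k(j̄)(s) = k(j̄)(s^p) ⊆ F_k`);
* `exists_root_in_full`    : `r ∈ F_k ∩ k((t^p))  ⟹  r = s ^ p` with `s ∈ F_k`;
* `theta_eq_zero_iff_split`: `θ r = 0 ⟺ r ∈ k((t^p))` (coefficientwise).
-/

set_option autoImplicit false
set_option linter.unusedSectionVars false
set_option linter.style.haveILetI false

noncomputable section

namespace Fermat.Agent.Ribet.H573

open ModularCurve HahnSeries IntermediateField

section Root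

variable {k : Type} [Field k] [PerfectField k] (p : ℕ) [hp : Fact p.Prime] [CharP k p]

/-- A series in `k((t^p))` is a `p`-th power (`k` perfect of characteristic `p`). -/
theorem exists_pow_eq_of_split (r : LaurentSeries k)
    (hr : ∀ n : ℤ, ¬ (p : ℤ) ∣ n → r.coeff n = 0) : ∃ s : LaurentSeries k, s ^ p = r := by
  haveI : NeZero p := ⟨hp.out.ne_zero⟩
  set r' : LaurentSeries k := Fermat.Agent.S37.H340.sect p 0 r with hr'
  have h1 : qExpand k p r' = r := by
    ext n
    rw [Fermat.Agent.S37.H340.qExpand_coeff]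
    split_ifs with h
    · rw [hr', Fermat.Agent.S37.H340.sect_coeff, add_zero, Int.mul_ediv_cancel' h]
    · exact (hr n h).symm
  refine ⟨coeffMap ((frobeniusEquiv k p).symm : k →+* k) r', ?_⟩
  rw [Fermat.Agent.A2.H612.pow_eq_qExpand_frobenius, coeffMap_coeffMap]
  have h2 : (frobenius k p).comp ((frobeniusEquiv k p).symm : k →+* k) = RingHom.id k := by
    ext x
    exact frobenius_apply_frobeniusEquiv_symm k p x
  rw [h2, coeffMap_id, h1]

/-- **`p`-th roots stay in `F_k`.** -/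
theorem root_mem_full (M : ℕ) (hM : M ≠ 0) (hpM : ¬ p ∣ M) (s : LaurentSeries k)
    (hs : s ^ p ∈ modularFunctionFieldFullC k M) : s ∈ modularFunctionFieldFullC k M := by
  have hchar : ∀ q : ℕ, q.Prime → q ∣ M → (q : k) ≠ 0 := by
    intro q hq hqM h0
    have hpq : p ∣ q := (CharP.cast_eq_zero_iff k p q).mp h0
    have : p = q := (Nat.prime_dvd_prime_iff_eq hp.out hq).mp hpq
    exact hpM (this ▸ hqM)
  have halg : IsAlgebraic k⟮jqModC k⟯ (s ^ p) :=
    Fermat.Agent.S18.MOD.H396.isAlgebraic_of_mem_full k M hM hchar _ hs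
  have halg' : IsAlgebraic k⟮jqModC k⟯ s := halg.of_pow hp.out.pos
  have hsep : IsSeparable k⟮jqModC k⟯ s :=
    Fermat.Agent.S18.H264.isSeparable_laurent_jqModC k p s halg'
  haveI : CharP k⟮jqModC k⟯ p := charP_of_injective_algebraMap
    (algebraMap k k⟮jqModC k⟯).injective p
  haveI : ExpChar k⟮jqModC k⟯ p := ExpChar.prime hp.out
  have heq := adjoin_simple_eq_adjoin_pow_expChar_of_isSeparable k⟮jqModC k⟯
    (LaurentSeries k) hsep p
  have hle : k⟮jqModC k⟯ ≤ modularFunctionFieldFullC k M := by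
    rw [adjoin_simple_le_iff]
    exact jqModC_mem_full k M
  have h1 : (k⟮jqModC k⟯)⟮s ^ p⟯ ≤ extendScalars hle := by
    rw [adjoin_simple_le_iff, mem_extendScalars]
    exact hs
  have h2 : s ∈ (k⟮jqModC k⟯)⟮s⟯ := mem_adjoin_simple_self _ s
  rw [heq] at h2
  exact (mem_extendScalars hle).mp (h1 h2)

/-- `r ∈ F_k ∩ k((t^p))` is the `p`-th power of an element of `F_k`. -/
theorem exists_root_in_full (M : ℕ) (hM : M ≠ 0) (hpM : ¬ p ∣ M) (r : LaurentSeries k)
    (hr : r ∈ modularFunctionFieldFullC k M)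
    (hsplit : ∀ n : ℤ, ¬ (p : ℤ) ∣ n → r.coeff n = 0) :
    ∃ s ∈ modularFunctionFieldFullC k M, s ^ p = r := by
  obtain ⟨s, hs⟩ := exists_pow_eq_of_split p r hsplit
  exact ⟨s, root_mem_full p M hM hpM s (hs ▸ hr), hs⟩

omit [PerfectField k] in
/-- `θ r = 0 ⟺ r ∈ k((t^p))`. -/
theorem theta_eq_zero_iff_split (r : LaurentSeries k) :
    (∀ n : ℤ, (n : k) * r.coeff n = 0) ↔ ∀ n : ℤ, ¬ (p : ℤ) ∣ n → r.coeff n = 0 := by
  constructor
  · intro h n hn
    rcases mul_eq_zero.mp (h n) with h0 | h0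
    · exact absurd ((CharP.intCast_eq_zero_iff k p n).mp h0) hn
    · exact h0
  · intro h n
    by_cases hn : (p : ℤ) ∣ n
    · rw [(CharP.intCast_eq_zero_iff k p n).mpr hn, zero_mul]
    · rw [h n hn, mul_zero]

end Root

end Fermat.Agent.Ribet.H573
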