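import Fermat.Agent.Ribet.H573.SlopeSpec
import Fermat.Agent.Ribet.H944.WallTargets

/-!
# Row 38, WALL-p: **(S1)** for the split parts `𝒮∞`, `𝒮₀`, `𝒮 = 𝒮∞ ⊓ 𝒮₀` (helper573)

For `x ∈ J₀(N)(ℚ̄)[p]` with Kummer function `f` and `σ` in the inertia group of `A`, the class
`σ x - x` has the Kummer function `σ f / f`, and `σ f / f ∈ ℚ̄ˣ · (1 + 𝔪_{V∞})`
(`A2/H129.exists_const_once` + `A2/H553.inInertia_Vinf`); the same for `W (σ f / f) = σ (W f) / W f`
because the Fricke involution commutes with the Galois action on the coefficients.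

* `s1_splitAt`   : the general statement (any ring automorphism `T` commuting with `σ`);
* `s1_splitInf`, `s1_splitZero`, `s1_splitPart : S1For p M' A _` (exact `WallTargets` shape);
* `sub_mem_finAt`, `s1_finPart` : `σ x - x` lies in the finite parts as well.
-/

set_option autoImplicit false
set_option linter.unusedSectionVars false
set_option linter.style.haveILetI false

noncomputable section

namespace Fermat.Agent.Ribet.H573

open AlgebraicCurve ModularCurve HahnSeries
open Fermat.Agent.A2.H129 Fermat.Agent.A2.H553 Fermat.Agent.A2.H528 Fermat.Agent.S37.Rim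
open Fermat.Agent.Ribet.H944.Wall

/-- Every `m`-torsion class has a Kummer function. -/
theorem exists_isKummerFn {m N : ℕ} {x : JZero N} (hx : m • x = 0) :
    ∃ f, IsKummerFn m N x f := by
  obtain ⟨D, rfl⟩ := Pic0.mk_surjective x
  have hprin : ((m • D : Divisor.degZero (K := Qb) (F := ↥(modularFunctionFieldBar N))) :
      Divisor Qb ↥(modularFunctionFieldBar N)) ∈
      Divisor.principal (K := Qb) (F := ↥(modularFunctionFieldBar N)) := by
    have h0 : Pic0.mk (m • D) = 0 := hx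
    have := (QuotientAddGroup.eq_zero_iff (m • D)).1 h0
    simpa [AddSubgroup.mem_addSubgroupOf] using this
  obtain ⟨f, hf, hfD⟩ := hprin
  refine ⟨f, hf, D, rfl, fun v => ?_⟩
  rw [← hfD v]
  simp [Finsupp.smul_apply]

/-- `σ f / f` is a Kummer function of `σ x - x`. -/
theorem IsKummerFn.galois_sub {m N : ℕ} {x : JZero N} {f : ↥(modularFunctionFieldBar N)}
    (hf : IsKummerFn m N x f) (σ : Qb ≃ₐ[ℚ] Qb) :
    IsKummerFn m N (σ • x - x)
      (tauSubOne (arithmeticRingAut (modularFunctionFieldFull N) σ) f) := by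
  obtain ⟨hf0, D, rfl, hD⟩ := hf
  set g : SemilinearAut Qb ↥(modularFunctionFieldBar N) :=
    arithmeticGalois (modularFunctionFieldFull N) σ with hg
  refine ⟨tauSubOne_ne_zero _ hf0, SemilinearAut.degZeroSMulHom g D - D, ?_, fun v => ?_⟩
  · rw [galois_smul_pic0_def, SemilinearAut.pic0_smul_mk]
    rfl
  · have hτ : arithmeticRingAut (modularFunctionFieldFull N) σ = SemilinearAut.toRingAut g := rfl
    have hτf : arithmeticRingAut (modularFunctionFieldFull N) σ f ≠ 0 := by simpa using hf0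
    show v.ord (arithmeticRingAut (modularFunctionFieldFull N) σ f * f⁻¹) = _
    rw [ord_div v hτf hf0, hτ, ord_smul_eq, hD, hD]
    simp only [AddSubgroupClass.coe_sub, SemilinearAut.coe_degZeroSMulHom, Finsupp.sub_apply,
      SemilinearAut.divisor_smul_apply]
    ring

section S1

variable {p M' : ℕ} {A : ValuationSubring Qb} {hA : A.LiesOverPrime p} {N : ℕ} {hp : p ≠ 0}

/-- `T (σ f / f) ∈ ℚ̄ˣ · (1 + 𝔪_{V∞})` for `σ` in the inertia group, `T` commuting with `σ`. -/
theorem exists_const_tauSubOne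
    (T : ↥(modularFunctionFieldBar N) ≃+* ↥(modularFunctionFieldBar N))
    {σ : Qb ≃ₐ[ℚ] Qb} (hσ : σ ∈ A.inertiaSubgroupIn ℚ)
    (hT : ∀ f, T (arithmeticRingAut (modularFunctionFieldFull N) σ f) =
      arithmeticRingAut (modularFunctionFieldFull N) σ (T f))
    {f : ↥(modularFunctionFieldBar N)} (hf : f ≠ 0) :
    ∃ c : Qb, c ≠ 0 ∧ OneAddNonunits (VInf p A hA N hp)
      (T (tauSubOne (arithmeticRingAut (modularFunctionFieldFull N) σ) f) * (cst N c)⁻¹) := by
  have hTf : T f ≠ 0 := by simpa using hf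
  obtain ⟨hV, -, hI, hK⟩ := k2_Vinf_modular A hp hA N hσ
  obtain ⟨c, ⟨c₀, rfl⟩, hc0, hu⟩ := exists_const_once hK hV hI hTf
  have hc₀ : c₀ ≠ 0 := by
    rintro rfl
    exact hc0 (map_zero _)
  refine ⟨c₀, hc₀, ?_⟩
  have e : T (tauSubOne (arithmeticRingAut (modularFunctionFieldFull N) σ) f) =
      tauSubOne (arithmeticRingAut (modularFunctionFieldFull N) σ) (T f) := by
    unfold tauSubOne
    rw [map_mul, map_inv₀, hT]
  rw [e]
  exact hu

/-- **(S1), general form.** -/
theorem s1_splitAt (T : ↥(modularFunctionFieldBar N) ≃+* ↥(modularFunctionFieldBar N))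
    {σ : Qb ≃ₐ[ℚ] Qb} (hσ : σ ∈ A.inertiaSubgroupIn ℚ)
    (hT : ∀ f, T (arithmeticRingAut (modularFunctionFieldFull N) σ f) =
      arithmeticRingAut (modularFunctionFieldFull N) σ (T f))
    {x : JZero N} (hx : p • x = 0) :
    σ • x - x ∈ splitAt p A hA N hp T := by
  obtain ⟨f, hf⟩ := exists_isKummerFn hx
  refine ⟨_, hf.galois_sub σ, ?_⟩
  obtain ⟨c, hc, hu⟩ := exists_const_tauSubOne (p := p) (hA := hA) (hp := hp) T hσ hT hf.1
  refine ⟨c, hc, 1, one_ne_zero, ?_⟩
  rw [one_pow, inv_one, mul_one]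
  exact hu

/-- `σ x - x` has all slopes zero (its Kummer function `σ f / f` reduces to a constant). -/
theorem sub_mem_finAt (T : ↥(modularFunctionFieldBar N) ≃+* ↥(modularFunctionFieldBar N))
    {σ : Qb ≃ₐ[ℚ] Qb} (hσ : σ ∈ A.inertiaSubgroupIn ℚ)
    (hT : ∀ f, T (arithmeticRingAut (modularFunctionFieldFull N) σ f) =
      arithmeticRingAut (modularFunctionFieldFull N) σ (T f))
    {x : JZero N} (hx : p • x = 0) :
    σ • x - x ∈ finAt p M' A hA N hp T := by
  obtain ⟨f, hf⟩ := exists_isKummerFn hx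
  refine ⟨_, hf.galois_sub σ, ?_⟩
  obtain ⟨c, hc, hu⟩ := exists_const_tauSubOne (p := p) (hA := hA) (hp := hp) T hσ hT hf.1
  set u := T (tauSubOne (arithmeticRingAut (modularFunctionFieldFull N) σ) f) * (cst N c)⁻¹
    with hu_def
  have hval : (VInf p A hA N hp).valuation u = 1 := hu.isUnitOf
  have hm : u ∈ VInf p A hA N hp := ((VInf p A hA N hp).valuation_le_one_iff u).mp hval.le
  have hone : (1 : ↥(modularFunctionFieldBar N)) ∈ VInf p A hA N hp := one_mem _
  have hsub : u - 1 ∈ VInf p A hA N hp := sub_mem hm hone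
  have h0 : redV p A hA N hp ⟨u - 1, hsub⟩ = 0 :=
    (redInf_eq_zero_iff (gaussInput_modular A hp hA N) ⟨u - 1, hsub⟩).mpr hu
  have h1 : redV p A hA N hp ⟨u, hm⟩ = 1 := by
    have e : (⟨u - 1, hsub⟩ : ↥(VInf p A hA N hp)) = ⟨u, hm⟩ - 1 := rfl
    rw [e, map_sub, map_one, sub_eq_zero] at h0
    exact h0
  refine ⟨c, hc, hm, 1, one_ne_zero, ?_, fun Q => ?_⟩
  · rw [h1]
    rfl
  · rw [Place.ord_one]
    exact dvd_zero _

end S1

section Targets

variable (p M' : ℕ) [NeZero M'] [NeZero p] [NeZero (p * M')] (A : ValuationSubring Qb)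
  (hA : A.LiesOverPrime p)

theorem refl_comm (σ : Qb ≃ₐ[ℚ] Qb) (f : ↥(modularFunctionFieldBar (p * M'))) :
    (RingEquiv.refl ↥(modularFunctionFieldBar (p * M')))
        (arithmeticRingAut (modularFunctionFieldFull (p * M')) σ f) =
      arithmeticRingAut (modularFunctionFieldFull (p * M')) σ
        ((RingEquiv.refl ↥(modularFunctionFieldBar (p * M'))) f) := rfl

theorem wF_comm (σ : Qb ≃ₐ[ℚ] Qb) (f : ↥(modularFunctionFieldBar (p * M'))) :
    (wF (p * M')).toRingEquiv (arithmeticRingAut (modularFunctionFieldFull (p * M')) σ f) =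
      arithmeticRingAut (modularFunctionFieldFull (p * M')) σ ((wF (p * M')).toRingEquiv f) :=
  wF_gal (p * M') σ f

/-- **(S1) for `𝒮∞`.** -/
theorem s1_splitInf : S1For p M' A (splitInf p M' A hA (NeZero.ne p)) :=
  fun _ hx _ hσ => s1_splitAt _ hσ (refl_comm p M' _) hx

/-- **(S1) for `𝒮₀`.** -/
theorem s1_splitZero : S1For p M' A (splitZero p M' A hA (NeZero.ne p)) :=
  fun _ hx _ hσ => s1_splitAt _ hσ (wF_comm p M' _) hx

/-- **(S1) for the split part `𝒮 = 𝒮∞ ⊓ 𝒮₀`.** -/
theorem s1_splitPart : S1For p M' A (splitPart p M' A hA (NeZero.ne p)) :=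
  fun x hx σ hσ => ⟨s1_splitInf p M' A hA x hx σ hσ, s1_splitZero p M' A hA x hx σ hσ⟩

/-- `σ x - x` lies in the finite part `𝓕 = 𝓕∞ ⊓ 𝓕₀` as well. -/
theorem s1_finPart : S1For p M' A (finPart p M' A hA (NeZero.ne p)) :=
  fun _ hx _ hσ => ⟨sub_mem_finAt _ hσ (refl_comm p M' _) hx,
    sub_mem_finAt _ hσ (wF_comm p M' _) hx⟩

end Targets

end Fermat.Agent.Ribet.H573
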