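import Mathlib

/-!
# Weak approximation for two Gauss-like valuation rings (helper573) — Mathlib only

`K ⊂ F` fields, `A` a valuation subring of `K` of rank one (`harch`), `V`, `V'` two DIFFERENT
valuation subrings of `F` which are *Gauss-like* over `A`: they induce `A` on the constants and
every nonzero element of `F` is a constant times a unit.

* `GaussLike A V`          : the hypothesis;
* `exists_sep`             : a separator `t ∈ 𝔪_V`, `t⁻¹ ∈ 𝔪_{V'}`;
* `exists_idem`            : for constants `d₁, d₂ ≠ 0` there is `e` with `1 - e ∈ d₁ V`,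
                             `e ∈ d₂ V'`;
* `exists_approx_two`      : for `g₁, g₂ ≠ 0`, `r ≠ 0` constant, there is `a` with
                             `a ∈ g₁ (1 + r V) ∩ g₂ (1 + r V')`;
* `OneModV V r u`          : `u ∈ 1 + r V`; closed under products, inverses, powers when
                             `r ∈ 𝔪_V`;
* `GaussLike.exists_depth`  : `1 + 𝔪_V = ⋃ (1 + ϖ V)`, `ϖ` running over the nonzero constants of
                             `𝔪_A`;
* **`exists_common_root`** : `f ∈ (Fˣ)^p (1 + r V) ∩ (Fˣ)^p (1 + r V')`, `r ∈ 𝔪_A` a nonzero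
                             constant ⟹ `f = g ^ p · u` with ONE `g` and
                             `u ∈ (1 + r V) ∩ (1 + r V')`.
-/

set_option autoImplicit false

namespace Fermat.Agent.Ribet.H573.WA

section OneMod

variable {F : Type*} [Field F]

/-- `u ∈ 1 + r · V`. -/
def OneModV (V : ValuationSubring F) (r u : F) : Prop :=
  ∃ y ∈ V, u = 1 + r * y

variable {V : ValuationSubring F} {r u u' : F}

theorem OneModV.one (V : ValuationSubring F) (r : F) : OneModV V r 1 :=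
  ⟨0, zero_mem _, by rw [mul_zero, add_zero]⟩

theorem OneModV.mul (hr : r ∈ V) (h : OneModV V r u) (h' : OneModV V r u') :
    OneModV V r (u * u') := by
  obtain ⟨y, hy, rfl⟩ := h
  obtain ⟨y', hy', rfl⟩ := h'
  exact ⟨y + y' + r * y * y', add_mem (add_mem hy hy') (mul_mem (mul_mem hr hy) hy'), by ring⟩

theorem OneModV.pow (hr : r ∈ V) (h : OneModV V r u) (n : ℕ) : OneModV V r (u ^ n) := by
  induction n with
  | zero => rw [pow_zero]; exact OneModV.one V r
  | succ n ih => rw [pow_succ]; exact ih.mul hr h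

theorem valuation_lt_one_of_nonunit (hr : r ∈ V.nonunits) : V.valuation r < 1 :=
  V.mem_nonunits_iff.1 hr |> fun h => h

theorem mem_of_nonunit (hr : r ∈ V.nonunits) : r ∈ V :=
  (V.valuation_le_one_iff r).1 (valuation_lt_one_of_nonunit hr).le

/-- elements of `1 + r V`, `r ∈ 𝔪_V`, have valuation one -/
theorem OneModV.valuation_eq_one (hr : r ∈ V.nonunits) (h : OneModV V r u) :
    V.valuation u = 1 := by
  obtain ⟨y, hy, rfl⟩ := h
  apply (V.valuation).map_one_add_of_lt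
  rw [map_mul]
  calc V.valuation r * V.valuation y ≤ V.valuation r * 1 :=
        mul_le_mul' le_rfl ((V.valuation_le_one_iff y).2 hy)
    _ = V.valuation r := mul_one _
    _ < 1 := valuation_lt_one_of_nonunit hr

theorem OneModV.ne_zero (hr : r ∈ V.nonunits) (h : OneModV V r u) : u ≠ 0 := by
  intro h0
  have := h.valuation_eq_one hr
  rw [h0, map_zero] at this
  exact zero_ne_one this

theorem OneModV.inv (hr : r ∈ V.nonunits) (h : OneModV V r u) : OneModV V r u⁻¹ := by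
  have hv := h.valuation_eq_one hr
  have hu0 := h.ne_zero hr
  obtain ⟨y, hy, rfl⟩ := h
  have hinv : (1 + r * y)⁻¹ ∈ V := by
    rw [← V.valuation_le_one_iff, map_inv₀, hv, inv_one]
  refine ⟨-(y * (1 + r * y)⁻¹), neg_mem (mul_mem hy hinv), ?_⟩
  field_simp
  ring

theorem OneModV.div (hr : r ∈ V.nonunits) (h : OneModV V r u) (h' : OneModV V r u') :
    OneModV V r (u * u'⁻¹) :=
  h.mul (mem_of_nonunit hr) (h'.inv hr)

/-- depth can be lowered -/
theorem OneModV.mono {r' a : F} (ha : a ∈ V) (hr : r = r' * a) (h : OneModV V r u) :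
    OneModV V r' u := by
  obtain ⟨y, hy, rfl⟩ := h
  exact ⟨a * y, mul_mem ha hy, by rw [hr]; ring⟩

end OneMod

section Gauss

variable {K F : Type*} [Field K] [Field F] [Algebra K F]

/-- `V` is *Gauss-like* over `A`: it induces `A` on the constants and every nonzero element of
`F` is a constant times a unit of `V`. -/
def GaussLike (A : ValuationSubring K) (V : ValuationSubring F) : Prop :=
  (∀ c : K, algebraMap K F c ∈ V ↔ c ∈ A) ∧
    ∀ f : F, f ≠ 0 → ∃ c : K, c ≠ 0 ∧ V.valuation (f * (algebraMap K F c)⁻¹) = 1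

variable {A : ValuationSubring K} {V V' : ValuationSubring F}

theorem algebraMap_ne_zero {c : K} (hc : c ≠ 0) : algebraMap K F c ≠ 0 := by
  rwa [Ne, map_eq_zero_iff _ (algebraMap K F).injective]

theorem GaussLike.valuation_le_one_iff (h : GaussLike A V) (c : K) :
    V.valuation (algebraMap K F c) ≤ 1 ↔ A.valuation c ≤ 1 := by
  rw [V.valuation_le_one_iff, A.valuation_le_one_iff]
  exact h.1 c

theorem GaussLike.valuation_lt_one_iff (h : GaussLike A V) (c : K) :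
    V.valuation (algebraMap K F c) < 1 ↔ A.valuation c < 1 := by
  by_cases hc : c = 0
  · subst hc
    simp
  have hc' : algebraMap K F c ≠ 0 := algebraMap_ne_zero hc
  have h1 := h.valuation_le_one_iff c⁻¹
  rw [map_inv₀, map_inv₀, map_inv₀,
    inv_le_one₀ (zero_lt_iff.mpr ((Valuation.ne_zero_iff _).mpr hc')),
    inv_le_one₀ (zero_lt_iff.mpr ((Valuation.ne_zero_iff _).mpr hc))] at h1
  constructor
  · intro hlt
    rcases lt_or_ge (A.valuation c) 1 with h2 | h2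
    · exact h2
    · exact absurd (h1.2 h2) (not_le.mpr hlt)
  · intro hlt
    rcases lt_or_ge (V.valuation (algebraMap K F c)) 1 with h2 | h2
    · exact h2
    · exact absurd (h1.1 h2) (not_le.mpr hlt)

/-- every element is a constant with the same valuation times a unit -/
theorem GaussLike.exists_const (h : GaussLike A V) {f : F} (hf : f ≠ 0) :
    ∃ c : K, c ≠ 0 ∧ V.valuation (f * (algebraMap K F c)⁻¹) = 1 ∧
      V.valuation f = V.valuation (algebraMap K F c) := by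
  obtain ⟨c, hc, hu⟩ := h.2 f hf
  refine ⟨c, hc, hu, ?_⟩
  have hc' : V.valuation (algebraMap K F c) ≠ 0 :=
    (Valuation.ne_zero_iff _).mpr (algebraMap_ne_zero hc)
  rw [map_mul, map_inv₀] at hu
  have := congrArg (· * V.valuation (algebraMap K F c)) hu
  simp only [one_mul] at this
  rwa [mul_assoc, inv_mul_cancel₀ hc', mul_one] at this

/-- Two comparable Gauss-like rings over the same `A` are equal. -/
theorem GaussLike.le_of_le (h : GaussLike A V) (h' : GaussLike A V') (hle : V ≤ V') :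
    V' ≤ V := by
  intro x hx
  by_cases hx0 : x = 0
  · rw [hx0]; exact zero_mem _
  obtain ⟨c, hc, hu⟩ := h.2 x hx0
  have hc' : algebraMap K F c ≠ 0 := algebraMap_ne_zero hc
  set u := x * (algebraMap K F c)⁻¹ with hu_def
  have hu0 : u ≠ 0 := by
    intro h0
    rw [h0, map_zero] at hu
    exact zero_ne_one hu
  have huV : u ∈ V := (V.valuation_le_one_iff u).1 hu.le
  have huiV : u⁻¹ ∈ V := by
    rw [← V.valuation_le_one_iff, map_inv₀, hu, inv_one]
  have hcx : algebraMap K F c = x * u⁻¹ := by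
    rw [hu_def]
    field_simp
  have hcV' : algebraMap K F c ∈ V' := by
    rw [hcx]
    exact mul_mem hx (hle huiV)
  have hcA : c ∈ A := (h'.1 c).1 hcV'
  have hcV : algebraMap K F c ∈ V := (h.1 c).2 hcA
  have hxe : x = u * algebraMap K F c := by
    rw [hu_def]
    field_simp
  rw [hxe]
  exact mul_mem huV hcV

/-- **Separator**: `t ∈ 𝔪_V` with `t⁻¹ ∈ 𝔪_{V'}`. -/
theorem exists_sep (h : GaussLike A V) (h' : GaussLike A V') (hne : V ≠ V') :
    ∃ t : F, t ≠ 0 ∧ V.valuation t < 1 ∧ V'.valuation t⁻¹ < 1 := by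
  have h1 : ¬ V ≤ V' := fun hle => hne (le_antisymm hle (h.le_of_le h' hle))
  have h2 : ¬ V' ≤ V := fun hle => hne (le_antisymm (h'.le_of_le h hle) hle)
  obtain ⟨x, hxV, hxV'⟩ := SetLike.not_le_iff_exists.1 h1
  obtain ⟨y, hyV', hyV⟩ := SetLike.not_le_iff_exists.1 h2
  have hx0 : x ≠ 0 := by
    rintro rfl
    exact hxV' (zero_mem _)
  have hy0 : y ≠ 0 := by
    rintro rfl
    exact hyV (zero_mem _)
  have hx1 : V.valuation x ≤ 1 := (V.valuation_le_one_iff x).2 hxV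
  have hx2 : 1 < V'.valuation x := by
    rw [← not_le, V'.valuation_le_one_iff]
    exact hxV'
  have hy1 : V'.valuation y ≤ 1 := (V'.valuation_le_one_iff y).2 hyV'
  have hy2 : 1 < V.valuation y := by
    rw [← not_le, V.valuation_le_one_iff]
    exact hyV
  refine ⟨x * y⁻¹, mul_ne_zero hx0 (inv_ne_zero hy0), ?_, ?_⟩
  · rw [map_mul, map_inv₀]
    have hy3 : (V.valuation y)⁻¹ < 1 := inv_lt_one_of_one_lt₀ hy2
    calc V.valuation x * (V.valuation y)⁻¹ ≤ 1 * (V.valuation y)⁻¹ :=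
          mul_le_mul' hx1 le_rfl
      _ = (V.valuation y)⁻¹ := one_mul _
      _ < 1 := hy3
  · rw [mul_inv, inv_inv, map_mul, map_inv₀]
    have hx3 : (V'.valuation x)⁻¹ < 1 := inv_lt_one_of_one_lt₀ hx2
    calc (V'.valuation x)⁻¹ * V'.valuation y ≤ (V'.valuation x)⁻¹ * 1 :=
          mul_le_mul' le_rfl hy1
      _ = (V'.valuation x)⁻¹ := mul_one _
      _ < 1 := hx3

/-- **Rank one**: high powers of an element of `𝔪_V` are divisible by any constant. -/
theorem GaussLike.exists_pow_div_mem (h : GaussLike A V)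
    (harch : ∀ a b : K, a ∈ A.nonunits → b ≠ 0 → ∃ n : ℕ, a ^ n / b ∈ A)
    {t : F} (ht0 : t ≠ 0) (ht : V.valuation t < 1) {d : K} (hd : d ≠ 0) :
    ∃ n₀ : ℕ, ∀ n : ℕ, n₀ ≤ n → V.valuation (t ^ n * (algebraMap K F d)⁻¹) ≤ 1 := by
  obtain ⟨c, hc, -, hvc⟩ := h.exists_const ht0
  have hcA : A.valuation c < 1 := by
    rw [← h.valuation_lt_one_iff, ← hvc]
    exact ht
  have hcn : c ∈ A.nonunits := A.mem_nonunits_iff.2 hcA
  have hcm : c ∈ A := (A.valuation_le_one_iff c).1 hcA.le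
  obtain ⟨n₀, hn₀⟩ := harch c d hcn hd
  refine ⟨n₀, fun n hn => ?_⟩
  have hmem : c ^ n / d ∈ A := by
    obtain ⟨k, rfl⟩ := Nat.exists_eq_add_of_le hn
    have e : c ^ (n₀ + k) / d = c ^ k * (c ^ n₀ / d) := by
      rw [pow_add]; ring
    rw [e]
    exact mul_mem (pow_mem hcm k) hn₀
  have h2 : V.valuation (algebraMap K F (c ^ n / d)) ≤ 1 :=
    (h.valuation_le_one_iff _).2 ((A.valuation_le_one_iff _).2 hmem)
  have e2 : V.valuation (t ^ n * (algebraMap K F d)⁻¹) =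
      V.valuation (algebraMap K F (c ^ n / d)) := by
    rw [map_mul, map_pow, map_inv₀, hvc, map_div₀, map_pow, map_div₀, map_pow, div_eq_mul_inv]
  rw [e2]
  exact h2


/-- **Depth.**  An element of `1 + 𝔪_V` lies in `1 + ϖ V` for a nonzero constant `ϖ ∈ 𝔪_A`
(`ℓ` is any nonzero constant of `𝔪_A`, used when `x = 1`). -/
theorem GaussLike.exists_depth (h : GaussLike A V) {x : F} (hx : V.valuation (x - 1) < 1)
    {ℓ : K} (hℓ0 : ℓ ≠ 0) (hℓ : ℓ ∈ A.nonunits) :
    ∃ ϖ : K, ϖ ≠ 0 ∧ ϖ ∈ A.nonunits ∧ OneModV V (algebraMap K F ϖ) x := by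
  by_cases hx1 : x - 1 = 0
  · refine ⟨ℓ, hℓ0, hℓ, 0, zero_mem _, ?_⟩
    rw [mul_zero, add_zero]
    exact sub_eq_zero.1 hx1
  obtain ⟨c, hc, hu, hvc⟩ := h.exists_const hx1
  have hcA : A.valuation c < 1 := by
    rw [← h.valuation_lt_one_iff, ← hvc]
    exact hx
  refine ⟨c, hc, A.mem_nonunits_iff.2 hcA, (x - 1) * (algebraMap K F c)⁻¹,
    (V.valuation_le_one_iff _).1 hu.le, ?_⟩
  have hc' : algebraMap K F c ≠ 0 := algebraMap_ne_zero hc
  field_simp
  ring

/-- In a valuation ring two nonzero nonunits have a common nonzero nonunit divisor. -/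
theorem exists_common_div (A : ValuationSubring K) {a b : K} (ha0 : a ≠ 0) (hb0 : b ≠ 0)
    (ha : a ∈ A.nonunits) (hb : b ∈ A.nonunits) :
    ∃ d : K, d ≠ 0 ∧ d ∈ A.nonunits ∧ (∃ x ∈ A, a = d * x) ∧ (∃ y ∈ A, b = d * y) := by
  rcases A.mem_or_inv_mem (a / b) with h | h
  · exact ⟨b, hb0, hb, ⟨a / b, h, by field_simp⟩, ⟨1, one_mem _, by ring⟩⟩
  · refine ⟨a, ha0, ha, ⟨1, one_mem _, by ring⟩, ⟨b / a, ?_, by field_simp⟩⟩
    rwa [inv_div] at h

variable (harch : ∀ a b : K, a ∈ A.nonunits → b ≠ 0 → ∃ n : ℕ, a ^ n / b ∈ A)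
include harch

/-- **Approximate idempotent**: `1 - e ∈ d₁ V`, `e ∈ d₂ V'`. -/
theorem exists_idem (h : GaussLike A V) (h' : GaussLike A V') (hne : V ≠ V')
    {d₁ d₂ : K} (hd₁ : d₁ ≠ 0) (hd₂ : d₂ ≠ 0) :
    ∃ e : F, (1 - e) * (algebraMap K F d₁)⁻¹ ∈ V ∧ e * (algebraMap K F d₂)⁻¹ ∈ V' := by
  obtain ⟨t, ht0, htV, htV'⟩ := exists_sep h h' hne
  obtain ⟨n₁, hn₁⟩ := h.exists_pow_div_mem harch ht0 htV hd₁
  obtain ⟨n₂, hn₂⟩ := h'.exists_pow_div_mem harch (inv_ne_zero ht0) htV' hd₂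
  set n := n₁ + n₂ + 1 with hn
  have hn0 : n ≠ 0 := by omega
  set s := t ^ n with hs
  have hs0 : s ≠ 0 := pow_ne_zero n ht0
  have hsV : V.valuation s < 1 := by
    rw [hs, map_pow]
    exact pow_lt_one₀ zero_le htV hn0
  have hsV' : V'.valuation s⁻¹ < 1 := by
    rw [hs, ← inv_pow, map_pow]
    exact pow_lt_one₀ zero_le htV' hn0
  have h1s : V.valuation (1 + s) = 1 := (V.valuation).map_one_add_of_lt hsV
  have h1s' : V'.valuation (1 + s⁻¹) = 1 := (V'.valuation).map_one_add_of_lt hsV'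
  have hne1 : 1 + s ≠ 0 := by
    intro h0
    rw [h0, map_zero] at h1s
    exact zero_ne_one h1s
  have hne2 : 1 + s⁻¹ ≠ 0 := by
    intro h0
    rw [h0, map_zero] at h1s'
    exact zero_ne_one h1s'
  refine ⟨(1 + s)⁻¹, ?_, ?_⟩
  · have e1 : (1 - (1 + s)⁻¹) * (algebraMap K F d₁)⁻¹ =
        (t ^ n * (algebraMap K F d₁)⁻¹) * (1 + s)⁻¹ := by
      rw [← hs]
      field_simp
      ring
    rw [e1, ← V.valuation_le_one_iff, map_mul, map_inv₀ _ (1 + s), h1s, inv_one, mul_one]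
    exact hn₁ n (by omega)
  · have key : (1 + s⁻¹)⁻¹ = s * (1 + s)⁻¹ := by
      have h3 : 1 + s⁻¹ = (1 + s) * s⁻¹ := by
        rw [add_mul, one_mul, mul_inv_cancel₀ hs0, add_comm]
      rw [h3, mul_inv, inv_inv, mul_comm]
    have e2 : (1 + s)⁻¹ * (algebraMap K F d₂)⁻¹ =
        (t⁻¹ ^ n * (algebraMap K F d₂)⁻¹) * (1 + s⁻¹)⁻¹ := by
      rw [inv_pow, ← hs, key]
      have : s⁻¹ * (algebraMap K F d₂)⁻¹ * (s * (1 + s)⁻¹) =
          (s⁻¹ * s) * ((1 + s)⁻¹ * (algebraMap K F d₂)⁻¹) := by ring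
      rw [this, inv_mul_cancel₀ hs0, one_mul]
    rw [e2, ← V'.valuation_le_one_iff, map_mul, map_inv₀ _ (1 + s⁻¹), h1s', inv_one, mul_one]
    exact hn₂ n (by omega)

/-- **Weak approximation for two elements**: `a ∈ g₁ (1 + r V) ∩ g₂ (1 + r V')`. -/
theorem exists_approx_two (h : GaussLike A V) (h' : GaussLike A V') (hne : V ≠ V')
    {g₁ g₂ : F} (hg₁ : g₁ ≠ 0) (hg₂ : g₂ ≠ 0) {r : K} (hr : r ≠ 0) :
    ∃ a : F, OneModV V (algebraMap K F r) (a * g₁⁻¹) ∧
      OneModV V' (algebraMap K F r) (a * g₂⁻¹) := by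
  have hr' : algebraMap K F r ≠ 0 := algebraMap_ne_zero hr
  by_cases hg : g₁ = g₂
  · subst hg
    refine ⟨g₁, ?_, ?_⟩ <;> rw [mul_inv_cancel₀ hg₁] <;> exact OneModV.one _ _
  have hx₁ : g₂ * g₁⁻¹ - 1 ≠ 0 := by
    intro h0
    apply hg
    have : g₂ * g₁⁻¹ = 1 := sub_eq_zero.1 h0
    field_simp at this
    exact this.symm
  have hx₂ : g₁ * g₂⁻¹ - 1 ≠ 0 := by
    intro h0
    apply hg
    have : g₁ * g₂⁻¹ = 1 := sub_eq_zero.1 h0
    field_simp at this
    exact this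
  obtain ⟨c₁, hc₁, hu₁, -⟩ := h.exists_const hx₁
  obtain ⟨c₂, hc₂, hu₂, -⟩ := h'.exists_const hx₂
  have hc₁' : algebraMap K F c₁ ≠ 0 := algebraMap_ne_zero hc₁
  have hc₂' : algebraMap K F c₂ ≠ 0 := algebraMap_ne_zero hc₂
  obtain ⟨e, he₁, he₂⟩ := exists_idem harch h h' hne (d₁ := r / c₁) (d₂ := r / c₂)
    (div_ne_zero hr hc₁) (div_ne_zero hr hc₂)
  refine ⟨g₁ * e + g₂ * (1 - e), ⟨((1 - e) * (algebraMap K F (r / c₁))⁻¹) *
      ((g₂ * g₁⁻¹ - 1) * (algebraMap K F c₁)⁻¹), mul_mem he₁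
        ((V.valuation_le_one_iff _).1 hu₁.le), ?_⟩,
    ⟨(e * (algebraMap K F (r / c₂))⁻¹) * ((g₁ * g₂⁻¹ - 1) * (algebraMap K F c₂)⁻¹),
      mul_mem he₂ ((V'.valuation_le_one_iff _).1 hu₂.le), ?_⟩⟩
  · rw [map_div₀]
    field_simp
    ring
  · rw [map_div₀]
    field_simp
    ring

/-- **One root for both places.**  If `f ∈ (Fˣ)^p (1 + r V)` and `f ∈ (Fˣ)^p (1 + r V')` for a
nonzero constant `r ∈ 𝔪_A`, then `f = g ^ p · u` with `u ∈ (1 + r V) ∩ (1 + r V')`. -/
theorem exists_common_root (h : GaussLike A V) (h' : GaussLike A V') (hne : V ≠ V')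
    (p : ℕ) {r : K} (hr0 : r ≠ 0) (hr : r ∈ A.nonunits) {f g₁ g₂ u₁ u₂ : F}
    (hg₁ : g₁ ≠ 0) (hg₂ : g₂ ≠ 0) (hf₁ : f = g₁ ^ p * u₁) (hf₂ : f = g₂ ^ p * u₂)
    (hu₁ : OneModV V (algebraMap K F r) u₁) (hu₂ : OneModV V' (algebraMap K F r) u₂) :
    ∃ g u : F, g ≠ 0 ∧ f = g ^ p * u ∧ OneModV V (algebraMap K F r) u ∧
      OneModV V' (algebraMap K F r) u := by
  have hrV : algebraMap K F r ∈ V.nonunits :=
    V.mem_nonunits_iff.2 ((h.valuation_lt_one_iff r).2 (A.mem_nonunits_iff.1 hr))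
  have hrV' : algebraMap K F r ∈ V'.nonunits :=
    V'.mem_nonunits_iff.2 ((h'.valuation_lt_one_iff r).2 (A.mem_nonunits_iff.1 hr))
  obtain ⟨a, ha₁, ha₂⟩ := exists_approx_two harch h h' hne hg₁ hg₂ hr0
  have ha0 : a ≠ 0 := by
    have := ha₁.ne_zero hrV
    exact fun h0 => this (by rw [h0, zero_mul])
  refine ⟨a, f * (a ^ p)⁻¹, ha0, ?_, ?_, ?_⟩
  · field_simp
  · have e : f * (a ^ p)⁻¹ = u₁ * ((a * g₁⁻¹) ^ p)⁻¹ := by
      rw [hf₁, mul_pow, inv_pow, mul_inv, inv_inv]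
      ring
    rw [e]
    exact hu₁.div hrV (ha₁.pow (mem_of_nonunit hrV) p)
  · have e : f * (a ^ p)⁻¹ = u₂ * ((a * g₂⁻¹) ^ p)⁻¹ := by
      rw [hf₂, mul_pow, inv_pow, mul_inv, inv_inv]
      ring
    rw [e]
    exact hu₂.div hrV' (ha₂.pow (mem_of_nonunit hrV') p)

end Gauss

end Fermat.Agent.Ribet.H573.WA
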